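/-
S55 / PT8, helper8: a convenient wrapper `mapOf` around Mathlib's functoriality of group cohomology
(`groupCohomology.map`) in which the coefficient morphism is given by a plain linear map with an
elementwise equivariance hypothesis; composition, identity, congruence and transport along
isomorphisms.
-/
import Mathlib
import Fermat.Agent.CFT.Coh.ResDelta_helper9

set_option autoImplicit false
set_option linter.unusedSectionVars false

open CategoryTheory groupCohomology Rep

namespace Fermat.Agent.CFT.PT8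

section mapOf

variable {k : Type} [CommRing k] {G H K : Type} [Group G] [Group H] [Group K]
  {A : Rep.{0} k H} {B : Rep.{0} k G} {C : Rep.{0} k K}

/-- The morphism of representations `res f A ⟶ B` attached to a linear map `φ : A → B` with
`φ (f(g) a) = g φ(a)`. -/
noncomputable def homOf (f : G →* H) (φ : A.V →ₗ[k] B.V)
    (hφ : ∀ (g : G) (a : A.V), φ (A.ρ (f g) a) = B.ρ g (φ a)) : res f A ⟶ B :=
  Rep.ofHom ⟨φ, fun g => LinearMap.ext fun a => hφ g a⟩

@[simp] lemma homOf_hom_apply (f : G →* H) (φ : A.V →ₗ[k] B.V)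
    (hφ : ∀ (g : G) (a : A.V), φ (A.ρ (f g) a) = B.ρ g (φ a)) (a : A.V) :
    (homOf f φ hφ).hom a = φ a := rfl

/-- The map `Hⁿ(H, A) ⟶ Hⁿ(G, B)` induced by `f : G →* H` and a compatible linear map. -/
noncomputable def mapOf (f : G →* H) (φ : A.V →ₗ[k] B.V)
    (hφ : ∀ (g : G) (a : A.V), φ (A.ρ (f g) a) = B.ρ g (φ a)) (n : ℕ) :
    groupCohomology A n ⟶ groupCohomology B n :=
  groupCohomology.map f (homOf f φ hφ) n

lemma mapOf_congr {f f' : G →* H} {φ φ' : A.V →ₗ[k] B.V}
    (hφ : ∀ (g : G) (a : A.V), φ (A.ρ (f g) a) = B.ρ g (φ a))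
    (hφ' : ∀ (g : G) (a : A.V), φ' (A.ρ (f' g) a) = B.ρ g (φ' a))
    (hf : f = f') (h : φ = φ') (n : ℕ) : mapOf f φ hφ n = mapOf f' φ' hφ' n := by
  subst hf; subst h; rfl

lemma map_eq_mapOf (f : G →* H) (ψ : res f A ⟶ B) (n : ℕ) :
    groupCohomology.map f ψ n = mapOf f ψ.hom.toLinearMap
      (fun g a => Rep.hom_comm_apply ψ g a) n := rfl

lemma mapOf_comp (f : G →* H) (φ : A.V →ₗ[k] B.V)
    (hφ : ∀ (g : G) (a : A.V), φ (A.ρ (f g) a) = B.ρ g (φ a))
    (f' : K →* G) (ψ : B.V →ₗ[k] C.V)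
    (hψ : ∀ (g : K) (b : B.V), ψ (B.ρ (f' g) b) = C.ρ g (ψ b)) (n : ℕ) :
    mapOf f φ hφ n ≫ mapOf f' ψ hψ n =
      mapOf (f.comp f') (ψ ∘ₗ φ) (fun g a => by
        rw [LinearMap.comp_apply, LinearMap.comp_apply, MonoidHom.comp_apply, hφ, hψ]) n := by
  unfold mapOf
  rw [← groupCohomology.map_comp]
  exact map_congr rfl rfl n

lemma mapOf_id (n : ℕ) :
    mapOf (MonoidHom.id G) (LinearMap.id : B.V →ₗ[k] B.V) (fun _ _ => rfl) n = 𝟙 _ := by
  unfold mapOf
  rw [← groupCohomology.map_id]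
  exact map_congr rfl rfl n

lemma resMap_eq_mapOf (S : Subgroup H) (A : Rep.{0} k H) (n : ℕ) :
    Coh.resMap S A n = mapOf (A := A) (B := res S.subtype A) S.subtype LinearMap.id
      (fun _ _ => rfl) n := by
  unfold mapOf Coh.resMap
  exact map_congr rfl rfl n

end mapOf

end Fermat.Agent.CFT.PT8

namespace Fermat.Agent.CFT.PT8

section equiv

variable {k : Type} [CommRing k] {G H : Type} [Group G] [Group H]
  {A : Rep.{0} k H} {B : Rep.{0} k G}

/-- Mutually inverse group homomorphisms with mutually inverse compatible linear maps induce a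
bijection on cohomology. -/
theorem mapOf_bijective_of_inverse (f : G →* H) (f' : H →* G) (φ : A.V →ₗ[k] B.V)
    (ψ : B.V →ₗ[k] A.V)
    (hφ : ∀ (g : G) (a : A.V), φ (A.ρ (f g) a) = B.ρ g (φ a))
    (hψ : ∀ (h : H) (b : B.V), ψ (B.ρ (f' h) b) = A.ρ h (ψ b))
    (hff' : f.comp f' = MonoidHom.id H) (hf'f : f'.comp f = MonoidHom.id G)
    (hψφ : ψ ∘ₗ φ = LinearMap.id) (hφψ : φ ∘ₗ ψ = LinearMap.id) (n : ℕ) :
    Function.Bijective (mapOf (A := A) (B := B) f φ hφ n).hom := by
  have h1 : mapOf (A := A) (B := B) f φ hφ n ≫ mapOf (A := B) (B := A) f' ψ hψ n = 𝟙 _ := by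
    rw [mapOf_comp, ← mapOf_id]
    exact mapOf_congr _ _ hff' hψφ n
  have h2 : mapOf (A := B) (B := A) f' ψ hψ n ≫ mapOf (A := A) (B := B) f φ hφ n = 𝟙 _ := by
    rw [mapOf_comp, ← mapOf_id]
    exact mapOf_congr _ _ hf'f hφψ n
  refine ⟨fun x y hxy => ?_, fun y => ?_⟩
  · have hx := congrArg (fun F => F.hom x) h1
    have hy := congrArg (fun F => F.hom y) h1
    simp only [ModuleCat.hom_comp, LinearMap.comp_apply, ModuleCat.hom_id,
      LinearMap.id_apply] at hx hy
    rw [← hx, ← hy, hxy]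
  · refine ⟨(mapOf (A := B) (B := A) f' ψ hψ n).hom y, ?_⟩
    have hy := congrArg (fun F => F.hom y) h2
    simpa using hy

/-- A group isomorphism together with a compatible linear equivalence induces a bijection on
cohomology. -/
theorem mapOf_bijective (e : G ≃* H) (φ : A.V ≃ₗ[k] B.V)
    (hφ : ∀ (g : G) (a : A.V), φ.toLinearMap (A.ρ (e.toMonoidHom g) a) = B.ρ g (φ.toLinearMap a))
    (n : ℕ) :
    Function.Bijective (mapOf (A := A) (B := B) e.toMonoidHom φ.toLinearMap hφ n).hom := by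
  have hψ : ∀ (h : H) (b : B.V), φ.symm.toLinearMap (B.ρ (e.symm.toMonoidHom h) b) =
      A.ρ h (φ.symm.toLinearMap b) := by
    intro h b
    apply φ.injective
    have := hφ (e.symm h) (φ.symm b)
    simp only [MulEquiv.coe_toMonoidHom, LinearEquiv.coe_coe, MulEquiv.apply_symm_apply,
      LinearEquiv.apply_symm_apply] at this ⊢
    exact this.symm
  exact mapOf_bijective_of_inverse e.toMonoidHom e.symm.toMonoidHom φ.toLinearMap
    φ.symm.toLinearMap hφ hψ (by ext h; simp) (by ext g; simp) (by ext a; simp)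
    (by ext b; simp) n

end equiv

end Fermat.Agent.CFT.PT8
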