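/-
S55 / PT8, helper8: TRANSFER of `p`-primary fundamental classes (helper4's `IsPFundamental`) along a
pair `(f : G' →* G, φ : A → A')` which induces bijections on the cohomology (degrees `1, 2`) of all
subgroups.  Two instances: transport along isomorphisms, and passage to a quotient by a submodule
which is acyclic on all subgroups.
-/
import Fermat.Agent.CFT.PT8.PF_helper8_MapOf
import Fermat.Agent.CFT.Coh.PFund_helper4

set_option autoImplicit false
set_option linter.unusedSectionVars false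

open CategoryTheory groupCohomology Rep

namespace Fermat.Agent.CFT.PT8

open Fermat.Agent.CFT.Coh

section mapSub

variable {k : Type} [CommRing k] {G G' : Type} [Group G] [Group G'] {A : Rep.{0} k G}
  {A' : Rep.{0} k G'} (f : G' →* G) (φ : A.V →ₗ[k] A'.V)
  (hφ : ∀ (g : G') (a : A.V), φ (A.ρ (f g) a) = A'.ρ g (φ a))

/-- The map `Hⁿ(T, A) ⟶ Hⁿ(S', A')` induced by `(f, φ)` for subgroups `S' ≤ G'`, `T ≤ G` and a
homomorphism `g : S' →* T` compatible with `f`. -/
noncomputable def mapSub (S' : Subgroup G') (T : Subgroup G) (g : S' →* T)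
    (hg : ∀ s : S', f (s : G') = (g s : G)) (n : ℕ) :
    groupCohomology (res T.subtype A) n ⟶ groupCohomology (res S'.subtype A') n :=
  mapOf (A := res T.subtype A) (B := res S'.subtype A') g φ (fun s a => by
    show φ (A.ρ ((g s : T) : G) a) = A'.ρ (s : G') (φ a)
    rw [← hg, hφ]) n

/-- Compatibility of `mapSub` with the restriction maps. -/
lemma resMap_comp_mapSub (S' : Subgroup G') (T : Subgroup G) (g : S' →* T)
    (hg : ∀ s : S', f (s : G') = (g s : G)) (n : ℕ) :
    resMap T A n ≫ mapSub f φ hφ S' T g hg n = mapOf f φ hφ n ≫ resMap S' A' n := by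
  unfold mapSub
  rw [resMap_eq_mapOf, resMap_eq_mapOf]
  refine (mapOf_comp _ _ _ _ _ _ n).trans ?_
  refine Eq.trans ?_ (mapOf_comp _ _ _ _ _ _ n).symm
  exact mapOf_congr _ _ (MonoidHom.ext fun s => (hg s).symm) (LinearMap.ext fun a => rfl) n

lemma resMap_mapSub_apply (S' : Subgroup G') (T : Subgroup G) (g : S' →* T)
    (hg : ∀ s : S', f (s : G') = (g s : G)) (n : ℕ) (x : groupCohomology A n) :
    (mapSub f φ hφ S' T g hg n).hom ((resMap T A n).hom x) =
      (resMap S' A' n).hom ((mapOf f φ hφ n).hom x) := by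
  have := congrArg (fun F => F.hom x) (resMap_comp_mapSub f φ hφ S' T g hg n)
  simpa using this

end mapSub

section predicate

/-- helper4's `IsPFundamental` for an arbitrary coefficient ring `k` (for `k = ℤ` it is
`IsPFundamental`, see `isPFundamental_iff`); convenient to avoid the two `ℤ`-module structures on
the carrier of a `Rep ℤ G`. -/
structure IsPFundK (p : ℕ) {k : Type} [CommRing k] {G : Type} [Group G] (A : Rep.{0} k G)
    (γ : groupCohomology A 2) : Prop where
  h1 : ∀ (S : Subgroup G) (x : groupCohomology (res S.subtype A) 1), p • x = 0 → x = 0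
  gen : ∀ (S : Subgroup G) (x : groupCohomology (res S.subtype A) 2),
    (∃ j : ℕ, p ^ j • x = 0) → ∃ m : ℤ, x = m • (resMap S A 2).hom γ
  ord : ∀ (S : Subgroup G) (m : ℤ), m • (resMap S A 2).hom γ = 0 →
    ((p ^ (Nat.card S).factorization p : ℕ) : ℤ) ∣ m

lemma isPFundamental_iff {p : ℕ} {G : Type} [Group G] (A : Rep.{0} ℤ G)
    (γ : groupCohomology A 2) : IsPFundamental p A γ ↔ IsPFundK p A γ :=
  ⟨fun h => ⟨h.h1, h.gen, h.ord⟩, fun h => ⟨h.h1, h.gen, h.ord⟩⟩

end predicate

section transfer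

variable {k : Type} [CommRing k] {G G' : Type} [Group G] [Group G'] {A : Rep.{0} k G}
  {A' : Rep.{0} k G'} (f : G' →* G) (φ : A.V →ₗ[k] A'.V)
  (hφ : ∀ (g : G') (a : A.V), φ (A.ρ (f g) a) = A'.ρ g (φ a)) {p : ℕ}

/-- **Transfer of `p`-primary fundamental classes.** -/
theorem IsPFundK.transfer
    (hdata : ∀ S' : Subgroup G', ∃ (T : Subgroup G) (g : S' →* T)
      (hg : ∀ s : S', f (s : G') = (g s : G)), Nat.card T = Nat.card S' ∧
        Function.Bijective (mapSub f φ hφ S' T g hg 1).hom ∧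
        Function.Bijective (mapSub f φ hφ S' T g hg 2).hom)
    {γ : groupCohomology A 2} (h : IsPFundK p A γ) :
    IsPFundK p A' ((mapOf f φ hφ 2).hom γ) := by
  refine ⟨?_, ?_, ?_⟩
  · intro S' x' hx'
    obtain ⟨T, g, hg, -, hb1, -⟩ := hdata S'
    obtain ⟨x, rfl⟩ := hb1.2 x'
    have hx : p • x = 0 := by
      apply hb1.1
      rw [map_nsmul, hx', map_zero]
    rw [h.h1 T x hx, map_zero]
  · rintro S' x' ⟨j, hx'⟩
    obtain ⟨T, g, hg, -, -, hb2⟩ := hdata S'
    obtain ⟨x, rfl⟩ := hb2.2 x'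
    have hx : p ^ j • x = 0 := by
      apply hb2.1
      rw [map_nsmul, hx', map_zero]
    obtain ⟨m, hm⟩ := h.gen T x ⟨j, hx⟩
    refine ⟨m, ?_⟩
    rw [hm, map_zsmul]
    congr 1
    exact resMap_mapSub_apply f φ hφ S' T g hg 2 γ
  · intro S' m hm
    obtain ⟨T, g, hg, hcard, -, hb2⟩ := hdata S'
    rw [← hcard]
    apply h.ord T m
    apply hb2.1
    rw [map_zsmul, map_zero]
    have := resMap_mapSub_apply f φ hφ S' T g hg 2 γ
    rw [this]
    exact hm

/-- Transfer of the vanishing of the `p`-torsion of `Hⁿ` of all subgroups. -/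
theorem torsion_free_transfer (n : ℕ)
    (hdata : ∀ S' : Subgroup G', ∃ (T : Subgroup G) (g : S' →* T)
      (hg : ∀ s : S', f (s : G') = (g s : G)),
        Function.Bijective (mapSub f φ hφ S' T g hg n).hom)
    (h : ∀ (T : Subgroup G) (x : groupCohomology (res T.subtype A) n), p • x = 0 → x = 0)
    (S' : Subgroup G') (x' : groupCohomology (res S'.subtype A') n) (hx' : p • x' = 0) :
    x' = 0 := by
  obtain ⟨T, g, hg, hb⟩ := hdata S'
  obtain ⟨x, rfl⟩ := hb.2 x'
  have hx : p • x = 0 := by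
    apply hb.1
    rw [map_nsmul, hx', map_zero]
  rw [h T x hx, map_zero]

end transfer

end Fermat.Agent.CFT.PT8
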