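/-
S55 / PT8, helper8: the two instances of the transfer theorem for `p`-primary fundamental classes:
* transport along a group isomorphism and a compatible linear equivalence (`IsPFundK.of_equiv`);
* passage to the quotient by a subrepresentation which is acyclic on all subgroups
  (`IsPFundK.of_shortExact`), together with the bijectivity of `Hⁿ(T, X₂) → Hⁿ(T, X₃)`.
-/
import Fermat.Agent.CFT.PT8.PF_helper8_Transfer

set_option autoImplicit false
set_option linter.unusedSectionVars false

open CategoryTheory groupCohomology Rep Limits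

namespace Fermat.Agent.CFT.PT8

open Fermat.Agent.CFT.Coh

section equiv

variable {k : Type} [CommRing k] {G G' : Type} [Group G] [Group G'] {A : Rep.{0} k G}
  {A' : Rep.{0} k G'} (e : G' ≃* G) (φ : A.V ≃ₗ[k] A'.V)
  (hφ : ∀ (g : G') (a : A.V), φ.toLinearMap (A.ρ (e.toMonoidHom g) a) =
    A'.ρ g (φ.toLinearMap a)) {p : ℕ}

/-- The data of the transfer theorem for an isomorphism. -/
lemma transfer_data_of_equiv (S' : Subgroup G') (n : ℕ) :
    ∃ (T : Subgroup G) (g : S' →* T) (hg : ∀ s : S', e.toMonoidHom (s : G') = (g s : G)),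
      Nat.card T = Nat.card S' ∧
      Function.Bijective (mapSub e.toMonoidHom φ.toLinearMap hφ S' T g hg n).hom := by
  refine ⟨S'.map e.toMonoidHom, (e.subgroupMap S').toMonoidHom, fun s => rfl,
    (Nat.card_congr (e.subgroupMap S').toEquiv).symm, ?_⟩
  exact mapOf_bijective (A := res (S'.map e.toMonoidHom).subtype A) (B := res S'.subtype A')
    (e.subgroupMap S') φ (fun s a => hφ (s : G') a) n

include hφ in
/-- **Transport of `p`-primary fundamental classes along an isomorphism.** -/
theorem IsPFundK.of_equiv {γ : groupCohomology A 2} (h : IsPFundK p A γ) :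
    IsPFundK p A' ((mapOf e.toMonoidHom φ.toLinearMap hφ 2).hom γ) := by
  refine h.transfer e.toMonoidHom φ.toLinearMap hφ (fun S' => ?_)
  obtain ⟨T, g, hg, hcard, hb1⟩ := transfer_data_of_equiv e φ hφ S' 1
  refine ⟨S'.map e.toMonoidHom, (e.subgroupMap S').toMonoidHom, fun s => rfl,
    (Nat.card_congr (e.subgroupMap S').toEquiv).symm, ?_, ?_⟩
  · exact mapOf_bijective (A := res (S'.map e.toMonoidHom).subtype A) (B := res S'.subtype A')
      (e.subgroupMap S') φ (fun s a => hφ (s : G') a) 1
  · exact mapOf_bijective (A := res (S'.map e.toMonoidHom).subtype A) (B := res S'.subtype A')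
      (e.subgroupMap S') φ (fun s a => hφ (s : G') a) 2

include hφ in
/-- Transport of `Hⁿ(S, A)[p] = 0` (all subgroups `S`) along an isomorphism. -/
theorem torsion_free_of_equiv (n : ℕ)
    (h : ∀ (T : Subgroup G) (x : groupCohomology (res T.subtype A) n), p • x = 0 → x = 0)
    (S' : Subgroup G') (x' : groupCohomology (res S'.subtype A') n) (hx' : p • x' = 0) :
    x' = 0 := by
  refine torsion_free_transfer e.toMonoidHom φ.toLinearMap hφ n (fun S' => ?_) h S' x' hx'
  exact ⟨S'.map e.toMonoidHom, (e.subgroupMap S').toMonoidHom, fun s => rfl,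
    mapOf_bijective (A := res (S'.map e.toMonoidHom).subtype A) (B := res S'.subtype A')
      (e.subgroupMap S') φ (fun s a => hφ (s : G') a) n⟩

end equiv

section quotient

variable {k G : Type} [CommRing k] [Group G] {X : ShortComplex (Rep.{0} k G)}

/-- In the long exact cohomology sequence, `Hⁿ(G, X₂) → Hⁿ(G, X₃)` is bijective if
`Hⁿ(G, X₁) = Hⁿ⁺¹(G, X₁) = 0`. -/
theorem map_g_bijective (hX : X.ShortExact) (n : ℕ) (h1 : IsZero (groupCohomology X.X₁ n))
    (h2 : IsZero (groupCohomology X.X₁ (n + 1))) :
    Function.Bijective (groupCohomology.map (MonoidHom.id G) X.g n).hom := by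
  constructor
  · rw [injective_iff_map_eq_zero]
    intro y hy
    obtain ⟨z, rfl⟩ := (ShortComplex.moduleCat_exact_iff _).1 (mapShortComplex₂_exact hX n) y hy
    have : z = 0 := @Subsingleton.elim _ (ModuleCat.subsingleton_of_isZero h1) _ _
    rw [this, map_zero]
    rfl
  · intro y
    have hy : (δ hX n (n + 1) rfl).hom y = 0 :=
      @Subsingleton.elim _ (ModuleCat.subsingleton_of_isZero h2) _ _
    obtain ⟨z, hz⟩ := (ShortComplex.moduleCat_exact_iff _).1
      (mapShortComplex₃_exact hX (i := n) (j := n + 1) rfl) y hy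
    exact ⟨z, hz⟩

variable (hX : X.ShortExact)
  (hacyc : ∀ (T : Subgroup G) (n : ℕ), IsZero (groupCohomology (res T.subtype X.X₁) (n + 1)))

include hX hacyc in
/-- **`Hⁿ⁺¹(T, X₂) → Hⁿ⁺¹(T, X₃)` is bijective** for every subgroup `T` when `X₁` is acyclic on all
subgroups. -/
theorem map_res_g_bijective (T : Subgroup G) (n : ℕ) :
    Function.Bijective (groupCohomology.map (A := res T.subtype X.X₂) (B := res T.subtype X.X₃)
      (MonoidHom.id T) ((resFunctor T.subtype).map X.g) (n + 1)).hom :=
  map_g_bijective (X := X.map (resFunctor T.subtype)) (shortExact_map_res T.subtype hX) (n + 1)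
    (hacyc T n) (hacyc T (n + 1))

/-- the equivariance needed to apply the transfer theorem with `f = id`. -/
lemma g_equivariant (g : G) (a : X.X₂.V) :
    X.g.hom.toLinearMap (X.X₂.ρ (MonoidHom.id G g) a) = X.X₃.ρ g (X.g.hom.toLinearMap a) :=
  Rep.hom_comm_apply X.g g a

include hX hacyc in
/-- **Passage to a quotient with acyclic kernel.** -/
theorem IsPFundK.of_shortExact {p : ℕ} {γ : groupCohomology X.X₂ 2} (h : IsPFundK p X.X₂ γ) :
    IsPFundK p X.X₃ ((groupCohomology.map (MonoidHom.id G) X.g 2).hom γ) := by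
  have hmap : groupCohomology.map (MonoidHom.id G) X.g 2 =
      mapOf (MonoidHom.id G) X.g.hom.toLinearMap g_equivariant 2 := rfl
  rw [hmap]
  refine h.transfer (MonoidHom.id G) X.g.hom.toLinearMap g_equivariant (fun T => ?_)
  refine ⟨T, MonoidHom.id T, fun s => rfl, rfl, ?_, ?_⟩
  · exact map_res_g_bijective hX hacyc T 0
  · exact map_res_g_bijective hX hacyc T 1

include hX hacyc in
/-- Passage of `Hⁿ⁺¹(T, ·)[p] = 0` to a quotient with acyclic kernel. -/
theorem torsion_free_of_shortExact {p : ℕ} (n : ℕ)
    (h : ∀ (T : Subgroup G) (x : groupCohomology (res T.subtype X.X₂) (n + 1)),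
      p • x = 0 → x = 0)
    (T : Subgroup G) (x' : groupCohomology (res T.subtype X.X₃) (n + 1)) (hx' : p • x' = 0) :
    x' = 0 := by
  refine torsion_free_transfer (MonoidHom.id G) X.g.hom.toLinearMap g_equivariant (n + 1)
    (fun T => ?_) h T x' hx'
  exact ⟨T, MonoidHom.id T, fun s => rfl, map_res_g_bijective hX hacyc T n⟩

end quotient

end Fermat.Agent.CFT.PT8
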