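/-
S55 / PT8, helper8: the `S`-class module `B_L = J_L / (Lˣ · U^S_L)` of a number field `L`
(`U^S_L` = helper1's `PT6.exUnits L S`: units outside `S`, `1` at `S`), with the Galois action, and
the short exact sequence `0 → U^S_L → C_L → B_L → 0` of `Gal(L/K)`-representations (`S ≠ ∅`).
-/
import Fermat.Agent.CFT.Global.PT6_helper1_Indices
import Fermat.Agent.CFT.Global.Interface_helper3
import Fermat.Agent.CFT.Coh.LES_helper9

set_option autoImplicit false
set_option linter.unusedSectionVars false

open scoped NumberField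
open CategoryTheory groupCohomology Rep

namespace Fermat.Agent.CFT.PT8

open Fermat.Agent.CFT.PT6

section defs

variable (L : Type) [Field L] [NumberField L] (S : Set Nat.Primes)

/-- `Lˣ · U^S_L ≤ J_L`. -/
noncomputable def sClassSubgroup : Subgroup (FinIdele L) := principalIdeles L ⊔ exUnits L S

/-- The `S`-class group `B_L = J_L / (Lˣ · U^S_L)`. -/
abbrev SClassGroup : Type := FinIdele L ⧸ sClassSubgroup L S

variable {L S}

/-- The projection `J_L → B_L`. -/
noncomputable def SClassGroup.mk : FinIdele L →* SClassGroup L S := QuotientGroup.mk' _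

lemma SClassGroup.mk_surjective : Function.Surjective (SClassGroup.mk (L := L) (S := S)) :=
  QuotientGroup.mk'_surjective _

lemma SClassGroup.mk_eq_one_iff {x : FinIdele L} :
    SClassGroup.mk (S := S) x = 1 ↔ x ∈ sClassSubgroup L S := by
  rw [SClassGroup.mk, QuotientGroup.mk'_apply, QuotientGroup.eq_one_iff]

lemma mem_sClassSubgroup_iff {x : FinIdele L} :
    x ∈ sClassSubgroup L S ↔ ∃ a : Lˣ, ∃ u ∈ exUnits L S, FinIdele.diag L a * u = x := by
  unfold sClassSubgroup
  rw [Subgroup.mem_sup]
  constructor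
  · rintro ⟨y, ⟨a, rfl⟩, u, hu, rfl⟩
    exact ⟨a, u, hu, rfl⟩
  · rintro ⟨a, u, hu, rfl⟩
    exact ⟨_, ⟨a, rfl⟩, u, hu, rfl⟩

section action

variable {G : Type*} [Group G] [MulSemiringAction G L]

lemma smul_mem_exUnits (g : G) {x : FinIdele L} (hx : x ∈ exUnits L S) : g • x ∈ exUnits L S := by
  refine ⟨fun ℓ hℓ => ?_, fun ℓ hℓ => ?_⟩
  · rw [FinIdele.smul_apply]
    exact (SemiLocal.smul_mem_unitGroup_iff (ℓ : ℕ) g).mpr (hx.1 ℓ hℓ)
  · rw [FinIdele.smul_apply, hx.2 ℓ hℓ, smul_one]

lemma smul_mem_sClassSubgroup (g : G) {x : FinIdele L} (hx : x ∈ sClassSubgroup L S) :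
    g • x ∈ sClassSubgroup L S := by
  obtain ⟨a, u, hu, rfl⟩ := mem_sClassSubgroup_iff.mp hx
  rw [smul_mul', FinIdele.smul_diag]
  exact mem_sClassSubgroup_iff.mpr ⟨_, _, smul_mem_exUnits g hu, rfl⟩

/-- The Galois action on `U^S_L`. -/
noncomputable instance exUnitsAction : MulDistribMulAction G (exUnits L S) where
  smul g x := ⟨g • x.1, smul_mem_exUnits g x.2⟩
  one_smul x := Subtype.ext (one_smul G x.1)
  mul_smul g h x := Subtype.ext (mul_smul g h x.1)
  smul_mul g x y := Subtype.ext (smul_mul' g x.1 y.1)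
  smul_one g := Subtype.ext (smul_one g)

@[simp] lemma coe_smul_exUnits (g : G) (x : exUnits L S) :
    ((g • x : exUnits L S) : FinIdele L) = g • (x : FinIdele L) := rfl

/-- The Galois action on `B_L`. -/
noncomputable instance sClassAction : MulDistribMulAction G (SClassGroup L S) where
  smul g := QuotientGroup.map (sClassSubgroup L S) (sClassSubgroup L S)
    (MulDistribMulAction.toMonoidHom (FinIdele L) g)
    (fun _ hx => Subgroup.mem_comap.mpr (smul_mem_sClassSubgroup g hx))
  one_smul x := by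
    induction x using QuotientGroup.induction_on with
    | H x => exact congrArg _ (one_smul G x)
  mul_smul g h x := by
    induction x using QuotientGroup.induction_on with
    | H x => exact congrArg _ (mul_smul g h x)
  smul_mul g x y := map_mul _ x y
  smul_one g := map_one _

@[simp] lemma SClassGroup.smul_mk (g : G) (x : FinIdele L) :
    g • SClassGroup.mk (S := S) x = SClassGroup.mk (g • x) := rfl

end action

/-- The projection `C_L → B_L`. -/
noncomputable def classToSClass : FinIdeleClass L →* SClassGroup L S :=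
  QuotientGroup.map (principalIdeles L) (sClassSubgroup L S) (MonoidHom.id _)
    (fun _ hx => Subgroup.mem_comap.mpr ((le_sup_left : principalIdeles L ≤ _) hx))

@[simp] lemma classToSClass_mk (x : FinIdele L) :
    classToSClass (S := S) (FinIdeleClass.mk x) = SClassGroup.mk x := rfl

lemma classToSClass_surjective : Function.Surjective (classToSClass (L := L) (S := S)) := by
  intro y
  obtain ⟨x, rfl⟩ := SClassGroup.mk_surjective y
  exact ⟨FinIdeleClass.mk x, rfl⟩

/-- The inclusion `U^S_L → C_L`. -/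
noncomputable def exUnitsToClass : exUnits L S →* FinIdeleClass L :=
  (FinIdeleClass.mk (F := L)).comp (exUnits L S).subtype

@[simp] lemma exUnitsToClass_apply (u : exUnits L S) :
    exUnitsToClass u = FinIdeleClass.mk (u : FinIdele L) := rfl

/-- `Lˣ ∩ U^S_L = 1` when `S` is nonempty. -/
lemma diag_mem_exUnits_iff (hS : S.Nonempty) (a : Lˣ) :
    FinIdele.diag L a ∈ exUnits L S ↔ a = 1 := by
  constructor
  · intro h
    obtain ⟨ℓ, hℓ⟩ := hS
    have h1 := h.2 ℓ hℓ
    rw [FinIdele.diag_apply] at h1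
    exact SemiLocal.ofUnits_injective (ℓ : ℕ) (h1.trans (map_one _).symm)
  · rintro rfl
    rw [map_one]
    exact (exUnits L S).one_mem

lemma exUnitsToClass_injective (hS : S.Nonempty) :
    Function.Injective (exUnitsToClass (L := L) (S := S)) := by
  rw [injective_iff_map_eq_one]
  intro u hu
  obtain ⟨a, ha⟩ := FinIdeleClass.mk_eq_one_iff.mp hu
  have h1 : FinIdele.diag L a ∈ exUnits L S := by rw [ha]; exact u.2
  rw [diag_mem_exUnits_iff hS] at h1
  apply Subtype.ext
  have h2 : (u : FinIdele L) = FinIdele.diag L a := ha.symm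
  rw [h2, h1, map_one]
  rfl

lemma exact_exUnitsToClass_classToSClass (c : FinIdeleClass L) :
    classToSClass (S := S) c = 1 ↔ c ∈ Set.range (exUnitsToClass (L := L) (S := S)) := by
  obtain ⟨x, rfl⟩ := FinIdeleClass.mk_surjective c
  rw [classToSClass_mk, SClassGroup.mk_eq_one_iff, mem_sClassSubgroup_iff]
  constructor
  · rintro ⟨a, u, hu, rfl⟩
    refine ⟨⟨u, hu⟩, ?_⟩
    rw [exUnitsToClass_apply, map_mul]
    have : FinIdeleClass.mk (FinIdele.diag L a) = 1 := FinIdeleClass.mk_eq_one_iff.mpr ⟨a, rfl⟩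
    rw [this]
    exact (one_mul (FinIdeleClass.mk u)).symm
  · rintro ⟨u, hu⟩
    rw [exUnitsToClass_apply] at hu
    have h1 : FinIdeleClass.mk ((u : FinIdele L)⁻¹ * x) = 1 := by
      rw [map_mul, map_inv, hu, inv_mul_cancel]
    obtain ⟨a, ha⟩ := FinIdeleClass.mk_eq_one_iff.mp h1
    refine ⟨a, u, u.2, ?_⟩
    rw [ha, mul_comm, mul_inv_cancel_left]

end defs

end Fermat.Agent.CFT.PT8
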