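/-
S55 / PT8 (f.4), helper8, part 2 (pure algebra): elementwise criterion for the vanishing of
`Hⁿ⁺¹(G, A)`, vanishing for arbitrary products of multiplicative `G`-modules, transport along
equivariant isomorphisms.
-/
import Fermat.Agent.CFT.Coh.Products_helper8

set_option autoImplicit false

open CategoryTheory groupCohomology Rep

namespace Fermat.Agent.CFT.PT8

section criterion

variable {k G : Type} [CommRing k] [Group G]

/-- Elementwise criterion for `Hⁿ⁺¹(G, A) = 0`: every `(n+1)`-cocycle is a coboundary. -/
theorem isZero_groupCohomology_succ_iff (A : Rep k G) (n : ℕ) :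
    Limits.IsZero (groupCohomology A (n + 1)) ↔
      ∀ x : (Fin (n + 1) → G) → A.V, (inhomogeneousCochains.d A (n + 1)).hom x = 0 →
        ∃ y : (Fin n → G) → A.V, (inhomogeneousCochains.d A n).hom y = x := by
  unfold groupCohomology
  rw [← HomologicalComplex.exactAt_iff_isZero_homology,
    HomologicalComplex.exactAt_iff' _ n (n + 1) (n + 2) (by simp) (by simp),
    ShortComplex.moduleCat_exact_iff]
  have hf : ((inhomogeneousCochains A).sc' n (n + 1) (n + 2)).f = inhomogeneousCochains.d A n :=
    CochainComplex.of_d (fun n => ModuleCat.of k ((Fin n → G) → A.V))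
      (fun n => inhomogeneousCochains.d A n) n
  have hg : ((inhomogeneousCochains A).sc' n (n + 1) (n + 2)).g =
      inhomogeneousCochains.d A (n + 1) :=
    CochainComplex.of_d (fun n => ModuleCat.of k ((Fin n → G) → A.V))
      (fun n => inhomogeneousCochains.d A n) (n + 1)
  constructor
  · intro h x hx
    obtain ⟨y, hy⟩ := h x (by rw [hg]; exact hx)
    exact ⟨y, by rw [← hf]; exact hy⟩
  · intro h x hx
    obtain ⟨y, hy⟩ := h x (by rw [← hg]; exact hx)
    exact ⟨y, by rw [hf]; exact hy⟩

end criterion

section pi

variable {G : Type} [Group G] {ι : Type} {M : ι → Type}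
  [∀ i, CommGroup (M i)] [∀ i, MulDistribMulAction G (M i)]

/-- the `i`-th projection `∏ M → M i` as a morphism of representations (arbitrary index type). -/
noncomputable def piProj (i : ι) :
    Rep.ofMulDistribMulAction G (∀ i, M i) ⟶ Rep.ofMulDistribMulAction G (M i) :=
  Rep.ofHom
    { toLinearMap := (MonoidHom.toAdditive (Pi.evalMonoidHom M i)).toIntLinearMap
      isIntertwining' := fun _ => LinearMap.ext fun _ => rfl }

lemma piProj_apply (i : ι) (a : (Rep.ofMulDistribMulAction G (∀ i, M i)).V) :
    (piProj (G := G) (M := M) i).hom a = Additive.ofMul ((Additive.toMul a : ∀ i, M i) i) := rfl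

/-- the cochain map induced by the `i`-th projection. -/
noncomputable abbrev piCochainsMap (i : ι) :
    inhomogeneousCochains (Rep.ofMulDistribMulAction G (∀ i, M i)) ⟶
      inhomogeneousCochains (Rep.ofMulDistribMulAction G (M i)) :=
  cochainsMap (A := Rep.ofMulDistribMulAction G (∀ i, M i))
    (B := Rep.ofMulDistribMulAction G (M i)) (MonoidHom.id G) (piProj (G := G) (M := M) i)

/-- **Cohomology of a product vanishes if it does for every factor** (arbitrary index type). -/
theorem isZero_groupCohomology_pi (n : ℕ)
    (h : ∀ i, Limits.IsZero (groupCohomology (Rep.ofMulDistribMulAction G (M i)) (n + 1))) :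
    Limits.IsZero (groupCohomology (Rep.ofMulDistribMulAction G (∀ i, M i)) (n + 1)) := by
  rw [isZero_groupCohomology_succ_iff]
  intro x hx
  -- components
  have hcomp : ∀ i, ∃ y : (Fin n → G) → (Rep.ofMulDistribMulAction G (M i)).V,
      (inhomogeneousCochains.d (Rep.ofMulDistribMulAction G (M i)) n).hom y =
        ((piCochainsMap (G := G) (M := M) i).f (n + 1)).hom x := by
    intro i
    apply (isZero_groupCohomology_succ_iff _ n).mp (h i)
    have h1 := (piCochainsMap (G := G) (M := M) i).comm (n + 1) (n + 2)
    rw [inhomogeneousCochains.d_def, inhomogeneousCochains.d_def] at h1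
    have h2 := congrArg (fun φ => φ.hom x) h1
    simp only [ModuleCat.hom_comp, LinearMap.comp_apply] at h2
    rw [h2, hx, map_zero]
  choose y hy using hcomp
  -- assemble
  let Y : (Fin n → G) → (Rep.ofMulDistribMulAction G (∀ i, M i)).V :=
    fun g => Additive.ofMul (fun i => Additive.toMul (y i g))
  refine ⟨Y, ?_⟩
  have hYi : ∀ i, ((piCochainsMap (G := G) (M := M) i).f n).hom Y = y i :=
    fun i => rfl
  -- joint injectivity of the projections
  have hinj : ∀ u v : (Fin (n + 1) → G) → (Rep.ofMulDistribMulAction G (∀ i, M i)).V,
      (∀ i, ((piCochainsMap (G := G) (M := M) i).f (n + 1)).hom u =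
        ((piCochainsMap (G := G) (M := M) i).f (n + 1)).hom v) → u = v := by
    intro u v huv
    funext g
    apply Additive.toMul.injective
    funext i
    exact congrArg Additive.toMul (congrFun (huv i) g)
  apply hinj
  intro i
  have h1 := (piCochainsMap (G := G) (M := M) i).comm n (n + 1)
  rw [inhomogeneousCochains.d_def, inhomogeneousCochains.d_def] at h1
  have h2 := congrArg (fun φ => φ.hom Y) h1
  simp only [ModuleCat.hom_comp, LinearMap.comp_apply] at h2
  rw [← h2, hYi, hy]

end pi

section transport

variable {G : Type} [Group G] {M M' : Type} [CommGroup M] [CommGroup M']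
  [MulDistribMulAction G M] [MulDistribMulAction G M']

/-- An equivariant isomorphism of multiplicative `G`-modules as an isomorphism of
representations. -/
noncomputable def repIsoOfMulEquiv (e : M ≃* M') (he : ∀ (g : G) (m : M), e (g • m) = g • e m) :
    Rep.ofMulDistribMulAction G M ≅ Rep.ofMulDistribMulAction G M' :=
  Rep.mkIso (Representation.Equiv.mk (MulEquiv.toAdditive e).toIntLinearEquiv (fun g => by
    ext m
    exact congrArg Additive.ofMul (he g (Additive.toMul m))))

/-- Transport of vanishing along an equivariant isomorphism. -/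
theorem isZero_groupCohomology_of_mulEquiv (e : M ≃* M')
    (he : ∀ (g : G) (m : M), e (g • m) = g • e m) (n : ℕ)
    (h : Limits.IsZero (groupCohomology (Rep.ofMulDistribMulAction G M') n)) :
    Limits.IsZero (groupCohomology (Rep.ofMulDistribMulAction G M) n) :=
  h.of_iso ((groupCohomology.functor ℤ G n).mapIso (repIsoOfMulEquiv e he))

end transport

end Fermat.Agent.CFT.PT8
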