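/-
S55 / PT8 (f.4), helper8, part 3 (pure algebra): a multiplicative criterion for a `G`-module `M`
to be coinduced from a `D`-module `N` (`D ≤ G`), and the resulting Shapiro vanishing statement.
-/
import Mathlib
import Fermat.Agent.CFT.PT8.UT_helper8_Products

set_option autoImplicit false

open CategoryTheory groupCohomology Rep

namespace Fermat.Agent.CFT.PT8

section coind

variable {G : Type} [Group G] (D : Subgroup G) {M N : Type} [CommGroup M] [CommGroup N]
  [MulDistribMulAction G M] [MulDistribMulAction D N]
  (π : M →* N) (hπ : ∀ (d : D) (m : M), π ((d : G) • m) = d • π m)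

/-- The canonical map `M → Coind_D^G N`, `m ↦ (g ↦ π (g • m))`, attached to a `D`-equivariant
homomorphism `π : M → N`. -/
noncomputable def toCoind :
    Rep.ofMulDistribMulAction G M ⟶
      Rep.coind D.subtype (Rep.ofMulDistribMulAction D N) :=
  Rep.ofHom
    { toLinearMap := (AddMonoidHom.mk'
        (fun m : Additive M =>
          (⟨fun g => Additive.ofMul (π (g • Additive.toMul m)), fun d h => by
            change Additive.ofMul (π (((d : G) * h) • Additive.toMul m)) =
              Additive.ofMul (d • π (h • Additive.toMul m))
            rw [mul_smul, hπ]⟩ :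
            Representation.coindV D.subtype (Rep.ofMulDistribMulAction D N).ρ))
        (fun a b => by
          apply Subtype.ext
          funext g
          change Additive.ofMul (π (g • (Additive.toMul a * Additive.toMul b))) =
            Additive.ofMul (π (g • Additive.toMul a)) + Additive.ofMul (π (g • Additive.toMul b))
          rw [smul_mul', map_mul]
          rfl)).toIntLinearMap
      isIntertwining' := fun x => by
        apply LinearMap.ext
        intro m
        apply Subtype.ext
        funext g
        change Additive.ofMul (π (g • (x • Additive.toMul m))) =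
          Additive.ofMul (π ((g * x) • Additive.toMul m))
        rw [mul_smul] }

lemma toCoind_apply (m : Additive M) (g : G) :
    ((toCoind D π hπ).hom m).1 g = Additive.ofMul (π (g • Additive.toMul m)) := rfl

lemma toCoind_injective (hinj : ∀ m : M, (∀ g : G, π (g • m) = 1) → m = 1) :
    Function.Injective (toCoind D π hπ).hom := by
  intro (a : Additive M) (b : Additive M) hab
  have h1 : ∀ g : G, π (g • (Additive.toMul a / Additive.toMul b)) = 1 := by
    intro g
    have h2 : Additive.ofMul (π (g • Additive.toMul a)) = Additive.ofMul (π (g • Additive.toMul b)) :=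
      congrArg (fun f : Representation.coindV D.subtype
        (Rep.ofMulDistribMulAction D N).ρ => f.1 g) hab
    have h3 : π (g • Additive.toMul a) = π (g • Additive.toMul b) := Additive.ofMul.injective h2
    rw [smul_div', map_div, h3, div_self']
  have h3 := hinj _ h1
  rw [div_eq_one] at h3
  exact Additive.toMul.injective h3

lemma toCoind_surjective (hsurj : ∀ f : G → N, (∀ (d : D) (g : G), f ((d : G) * g) = d • f g) →
    ∃ m : M, ∀ g : G, π (g • m) = f g) : Function.Surjective (toCoind D π hπ).hom := by
  rintro ⟨f, hf⟩
  obtain ⟨m, hm⟩ := hsurj (fun g => Additive.toMul (f g : Additive N)) (fun d g => by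
    have := hf d g
    exact congrArg Additive.toMul this)
  refine ⟨(Additive.ofMul m : Additive M), Subtype.ext ?_⟩
  funext g
  change Additive.ofMul (π (g • m)) = f g
  rw [hm g]
  rfl

include hπ in
/-- **Coinduction criterion**: under `hinj` and `hsurj`, `M ≅ Coind_D^G N`. -/
theorem nonempty_iso_coind (hinj : ∀ m : M, (∀ g : G, π (g • m) = 1) → m = 1)
    (hsurj : ∀ f : G → N, (∀ (d : D) (g : G), f ((d : G) * g) = d • f g) →
      ∃ m : M, ∀ g : G, π (g • m) = f g) :
    Nonempty (Rep.ofMulDistribMulAction G M ≅
      Rep.coind D.subtype (Rep.ofMulDistribMulAction D N)) := by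
  have hbij : Function.Bijective (toCoind D π hπ).hom :=
    ⟨toCoind_injective D π hπ hinj, toCoind_surjective D π hπ hsurj⟩
  exact ⟨Rep.mkIso (Representation.Equiv.mk
    (LinearEquiv.ofBijective (toCoind D π hπ).hom.toLinearMap hbij)
    (fun g => (toCoind D π hπ).hom.isIntertwining' g))⟩

include hπ in
/-- **Shapiro vanishing**: if `M ≅ Coind_D^G N` (criterion) and `Hⁿ(D, N) = 0`, then
`Hⁿ(G, M) = 0`. -/
theorem isZero_groupCohomology_of_coind (hinj : ∀ m : M, (∀ g : G, π (g • m) = 1) → m = 1)
    (hsurj : ∀ f : G → N, (∀ (d : D) (g : G), f ((d : G) * g) = d • f g) →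
      ∃ m : M, ∀ g : G, π (g • m) = f g) (n : ℕ)
    (h : Limits.IsZero (groupCohomology (Rep.ofMulDistribMulAction D N) n)) :
    Limits.IsZero (groupCohomology (Rep.ofMulDistribMulAction G M) n) := by
  obtain ⟨e⟩ := nonempty_iso_coind D π hπ hinj hsurj
  exact (h.of_iso (coindIso (Rep.ofMulDistribMulAction D N) n)).of_iso
    ((groupCohomology.functor ℤ G n).mapIso e)

end coind

end Fermat.Agent.CFT.PT8
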