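/-
S55 / PT8 (f.4), helper8, part 4: the integral block of `(ℚ_ℓ ⊗ L)ˣ` over a place `w` of `K` is
coinduced from the decomposition group `D_W` of a place `W | w` acting on the units of the valuation
ring of `L_W` (general stabiliser), hence `Hⁿ(Gal(L/K), block) = 0` as soon as `Hⁿ(D_W, 𝒪_Wˣ) = 0`.
-/
import Fermat.Agent.CFT.Global.G01_helper7_Induced
import Fermat.Agent.CFT.PT8.UT_helper8_Coind

set_option autoImplicit false
set_option linter.unusedSectionVars false
set_option linter.style.haveILetI false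

open scoped TensorProduct NumberField Pointwise
open CategoryTheory groupCohomology Rep

namespace Fermat.Agent.CFT.PT8

open scoped SemiLocalRel

section block

variable {ℓ : ℕ} [Fact ℓ.Prime] {K L : Type} [Field K] [NumberField K] [Field L] [NumberField L]
  [Algebra K L] [FiniteDimensional K L] [IsGalois K L]

/-- The decomposition group of `W` acts on the units of the valuation ring of `L_W` (through
`Place.decompHom`). -/
@[reducible] noncomputable def decompIntegerUnitsAction (W : Place ℓ L) :
    MulDistribMulAction (MulAction.stabilizer (L ≃ₐ[K] L) W) W.integerUnits :=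
  MulDistribMulAction.compHom _ (Place.decompHom (K := K) W)

attribute [local instance] decompIntegerUnitsAction

lemma coe_decomp_smul (W : Place ℓ L) (d : MulAction.stabilizer (L ≃ₐ[K] L) W)
    (z : W.integerUnits) :
    (((d • z : W.integerUnits) : W.Completionˣ) : W.Completion) =
      Place.decompHom (K := K) W d ((z : W.Completionˣ) : W.Completion) := rfl

/-- the projection of the integral block over `w = W.under` to the units of the valuation ring
of `L_W`. -/
noncomputable def blockProj (W : Place ℓ L) :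
    SemiLocal.blockIntegerUnits (L := L) (W.under (K := K)) →* W.integerUnits where
  toFun u := ⟨W.unitsProj (u : (SemiLocal ℓ L)ˣ),
    SemiLocal.mem_unitGroup_iff_forall.mp (SemiLocal.mem_blockIntegerUnits_iff.mp u.2).2 W⟩
  map_one' := Subtype.ext (map_one W.unitsProj)
  map_mul' _ _ := Subtype.ext (map_mul W.unitsProj _ _)

lemma coe_blockProj (W : Place ℓ L)
    (u : SemiLocal.blockIntegerUnits (L := L) (W.under (K := K))) :
    ((blockProj (K := K) W u : W.integerUnits) : W.Completionˣ) =
      W.unitsProj (u : (SemiLocal ℓ L)ˣ) := rfl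

lemma blockProj_smul (W : Place ℓ L) (d : MulAction.stabilizer (L ≃ₐ[K] L) W)
    (u : SemiLocal.blockIntegerUnits (L := L) (W.under (K := K))) :
    blockProj (K := K) W ((d : L ≃ₐ[K] L) • u) = d • blockProj (K := K) W u :=
  Subtype.ext (Units.ext rfl)

/-- injectivity half of the coinduction criterion for the integral block. -/
lemma blockProj_hinj (W : Place ℓ L)
    (u : SemiLocal.blockIntegerUnits (L := L) (W.under (K := K)))
    (h : ∀ g : L ≃ₐ[K] L, blockProj (K := K) W (g • u) = 1) : u = 1 := by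
  apply Subtype.ext
  apply SemiLocal.units_ext_proj
  intro W'
  rw [Subgroup.coe_one, map_one]
  by_cases hW' : W'.under (K := K) = W.under
  · obtain ⟨σ, hσ⟩ := Place.exists_smul_eq_of_under_eq hW'
    have h1 : W.unitsProj (σ • (u : (SemiLocal ℓ L)ˣ)) = 1 :=
      congrArg (fun z : W.integerUnits => (z : W.Completionˣ)) (h σ)
    rwa [Place.unitsProj_smul_eq_one_iff σ hσ] at h1
  · exact (SemiLocal.mem_blockIntegerUnits_iff.mp u.2).1 W' hW'

/-- key identity: two elements of `Gal(L/K)` carrying `W'` to `W` differ by an element of the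
decomposition group of `W`. -/
lemma smulEquiv_symm_apply (W W' : Place ℓ L) (σ τ : L ≃ₐ[K] L) (hσ : σ • W' = W)
    (hτ : τ • W' = W) (hd : σ * τ⁻¹ ∈ MulAction.stabilizer (L ≃ₐ[K] L) W) (z : W.Completion) :
    Place.smulEquiv σ hσ ((Place.smulEquiv τ hτ).symm z) =
      Place.decompHom (K := K) W ⟨σ * τ⁻¹, hd⟩ z := by
  obtain ⟨x, rfl⟩ := W.proj_surjective z
  have h1 : (Place.smulEquiv τ hτ).symm (W.proj x) = W'.proj (τ⁻¹ • x) := by
    rw [AlgEquiv.symm_apply_eq, Place.smulEquiv_proj, smul_inv_smul]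
  rw [h1, Place.smulEquiv_proj, Place.decompHom_proj, mul_smul]

lemma mul_inv_mem_stabilizer {W W' : Place ℓ L} {σ τ : L ≃ₐ[K] L} (hσ : σ • W' = W)
    (hτ : τ • W' = W) : σ * τ⁻¹ ∈ MulAction.stabilizer (L ≃ₐ[K] L) W := by
  rw [MulAction.mem_stabilizer_iff, mul_smul]
  conv_lhs => rw [← hτ, inv_smul_smul, hσ]

/-- surjectivity half of the coinduction criterion for the integral block. -/
lemma blockProj_hsurj (W : Place ℓ L) (f : (L ≃ₐ[K] L) → W.integerUnits)
    (hf : ∀ (d : MulAction.stabilizer (L ≃ₐ[K] L) W) (g : L ≃ₐ[K] L),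
      f ((d : L ≃ₐ[K] L) * g) = d • f g) :
    ∃ u : SemiLocal.blockIntegerUnits (L := L) (W.under (K := K)),
      ∀ g : L ≃ₐ[K] L, blockProj (K := K) W (g • u) = f g := by
  classical
  -- choice of an element carrying `W'` to `W`
  have hex : ∀ W' : Place ℓ L, W'.under (K := K) = W.under →
      ∃ τ : L ≃ₐ[K] L, τ • W' = W := fun W' h => Place.exists_smul_eq_of_under_eq h
  choose τ hτ using hex
  -- the components
  let c : Π W' : Place ℓ L, (W'.Completion)ˣ := fun W' =>
    if h : W'.under (K := K) = W.under then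
      Units.map ((Place.smulEquiv (τ W' h) (hτ W' h)).symm : W.Completion →* W'.Completion)
        (f (τ W' h) : W.Completionˣ)
    else 1
  obtain ⟨u, hu⟩ := SemiLocal.exists_unitsProj_eq ℓ L c
  have hblock : u ∈ SemiLocal.blockUnits (L := L) (W.under (K := K)) := by
    intro W' hW'
    rw [hu W']
    exact dif_neg hW'
  have hint : u ∈ SemiLocal.unitGroup ℓ L := by
    rw [SemiLocal.mem_unitGroup_iff_forall]
    intro W'
    rw [hu W']
    by_cases h : W'.under (K := K) = W.under
    · simp only [c, dif_pos h]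
      have h1 := (f (τ W' h)).2
      rw [Place.mem_integerUnits_iff] at h1 ⊢
      rw [← map_inv]
      exact ⟨(isIntegral_algEquiv ((Place.smulEquiv (τ W' h) (hτ W' h)).symm.restrictScalars
          ℤ_[ℓ])).mpr h1.1,
        (isIntegral_algEquiv ((Place.smulEquiv (τ W' h) (hτ W' h)).symm.restrictScalars
          ℤ_[ℓ])).mpr h1.2⟩
    · simp only [c, dif_neg h]
      exact one_mem _
  refine ⟨⟨u, SemiLocal.mem_blockIntegerUnits_iff.mpr ⟨hblock, hint⟩⟩, fun g => ?_⟩
  apply Subtype.ext
  apply Units.ext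
  -- the place `W' = g⁻¹ • W`
  have hg : g • (g⁻¹ • W) = W := smul_inv_smul g W
  have hunder : (g⁻¹ • W).under (K := K) = W.under := Place.under_smul g⁻¹ W
  have h1 : W.unitsProj (g • u) =
      Units.map ((Place.smulEquiv g hg : (g⁻¹ • W).Completion ≃ₐ[ℚ_[ℓ]] W.Completion) :
        (g⁻¹ • W).Completion →* W.Completion) ((g⁻¹ • W).unitsProj u) :=
    Place.unitsProj_smul g hg u
  change ((W.unitsProj (g • u) : W.Completionˣ) : W.Completion) = _
  rw [h1, hu (g⁻¹ • W)]
  simp only [c, dif_pos hunder]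
  set τ₀ := τ (g⁻¹ • W) hunder with hτ₀
  have hτ₀' : τ₀ • (g⁻¹ • W) = W := hτ (g⁻¹ • W) hunder
  have hd := mul_inv_mem_stabilizer (K := K) hg hτ₀'
  have h2 := smulEquiv_symm_apply W (g⁻¹ • W) g τ₀ hg hτ₀' hd
    (((f τ₀ : W.integerUnits) : W.Completionˣ) : W.Completion)
  have h3 : f g = (⟨g * τ₀⁻¹, hd⟩ : MulAction.stabilizer (L ≃ₐ[K] L) W) • f τ₀ := by
    rw [← hf]
    congr 1
    change g = g * τ₀⁻¹ * τ₀
    rw [inv_mul_cancel_right]
  rw [h3, coe_decomp_smul]
  exact h2

end block

end Fermat.Agent.CFT.PT8
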