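/-
S55 / PT8 (f.4), helper8, part 1 (pure algebra): for a finite cyclic group `G` and `A : Rep k G`
with `Ĥ⁰(G, A) = Ĥ⁻¹(G, A) = 0`, all `Hⁿ(G, A)`, `n ≥ 1`, vanish (periodicity, via Mathlib's
`Rep.FiniteCyclicGroup.groupCohomologyIsoEven/Odd`).
-/
import Fermat.Agent.CFT.Coh.TateTrivial_helper9
import Fermat.Agent.CFT.Coh.Cyclic_helper6_Hexagon

set_option autoImplicit false

open CategoryTheory groupCohomology Rep

namespace Fermat.Agent.CFT.PT8

open Fermat.Agent.CFT.Coh

variable {k G : Type} [CommRing k] [Group G] [Finite G]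

/-- **Periodicity**: for a finite cyclic group, `Ĥ⁰ = Ĥ⁻¹ = 0` implies `Hⁿ = 0` for all
`n ≥ 1`. -/
theorem isZero_groupCohomology_succ_of_isCyclic [IsCyclic G] (A : Rep k G)
    (h0 : TateH0Trivial A) (h1 : TateHm1Trivial A) (n : ℕ) :
    Limits.IsZero (groupCohomology A (n + 1)) := by
  classical
  obtain ⟨g, hg⟩ := IsCyclic.exists_generator (α := G)
  let _ : CommGroup G := IsCyclic.commGroup
  let _ := Fintype.ofFinite G
  rcases Nat.even_or_odd (n + 1) with hi | hi
  · refine Limits.IsZero.of_iso ?_ (Rep.FiniteCyclicGroup.groupCohomologyIsoEven A g hg (n + 1) hi)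
    rw [← ShortComplex.exact_iff_isZero_homology, ShortComplex.moduleCat_exact_iff]
    intro x hx
    have hx' : A.ρ g x - x = 0 := hx
    have hinv : x ∈ A.ρ.invariants := by
      rw [Representation.mem_invariants_iff_of_forall_mem_zpowers A.ρ g hg]
      exact sub_eq_zero.mp hx'
    obtain ⟨b, hb⟩ := h0 x hinv
    refine ⟨b, ?_⟩
    rw [normMap_eq_norm] at hb
    exact hb
  · refine Limits.IsZero.of_iso ?_ (Rep.FiniteCyclicGroup.groupCohomologyIsoOdd A g hg (n + 1) hi)
    rw [← ShortComplex.exact_iff_isZero_homology, ShortComplex.moduleCat_exact_iff]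
    intro x hx
    have hx' : normMap A x = 0 := by
      rw [normMap_eq_norm]
      exact hx
    have h2 := h1 x hx'
    rw [coinvariantsKer_eq_range_sub hg] at h2
    obtain ⟨b, hb⟩ := h2
    exact ⟨b, hb⟩

/-- `Subsingleton` form. -/
theorem isZero_groupCohomology_succ_of_isCyclic' [IsCyclic G] (A : Rep k G)
    (h0 : Subsingleton (TateH0 A)) (h1 : Subsingleton (TateHm1 A)) (n : ℕ) :
    Limits.IsZero (groupCohomology A (n + 1)) :=
  isZero_groupCohomology_succ_of_isCyclic A ((tateH0Trivial_iff A).2 h0)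
    ((tateHm1Trivial_iff A).2 h1) n

end Fermat.Agent.CFT.PT8
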