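/-
S55 / PT8 (f.4), helper8, part 5: at an unramified place `W` of `L` over `K` the decomposition group
`D_W` is cyclic and `Hⁿ(D_W, 𝒪_Wˣ) = 0` for all `n ≥ 1`; consequently the integral blocks and the
unit group of the maximal order of `ℚ_ℓ ⊗ L` are acyclic for `Gal(L/K)` (general Galois `L/K`).
-/
import Fermat.Agent.CFT.Global.G2_helper2_SemiLocalHerbrand
import Fermat.Agent.CFT.Local.L1b_helper7
import Fermat.Agent.CFT.PT8.UT_helper8_Block
import Fermat.Agent.CFT.PT8.UT_helper8_Cyclic

set_option autoImplicit false
set_option linter.unusedSectionVars false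
set_option linter.style.haveILetI false

open scoped TensorProduct NumberField Pointwise
open CategoryTheory groupCohomology Rep

namespace Fermat.Agent.CFT.PT8

open Fermat.Agent.CFT.Coh
open scoped SemiLocalRel
open scoped Fermat.Agent.CFT.Local.PadicBridge

section localvanish

variable {ℓ : ℕ} [Fact ℓ.Prime] {K L : Type} [Field K] [NumberField K] [Field L] [NumberField L]
  [Algebra K L] [FiniteDimensional K L] [IsGalois K L]

attribute [local instance] decompIntegerUnitsAction

/-- **Local vanishing**: at an unramified place, `Hⁿ⁺¹(D_W, 𝒪_Wˣ) = 0`. -/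
theorem isZero_groupCohomology_decomp_integerUnits (W : Place ℓ L)
    (hunr : Local.ramIdx (W.under (K := K)).integers W.integers = 1) (n : ℕ) :
    Limits.IsZero (groupCohomology
      (Rep.ofMulDistribMulAction (MulAction.stabilizer (L ≃ₐ[K] L) W) W.integerUnits) (n + 1)) := by
  obtain ⟨φ, hφ, -⟩ := Local.exists_frobenius_of_ramIdx_eq_one (W.under (K := K)).integers
    (W.under (K := K)).Completion W.Completion W.integers hunr
  obtain ⟨h0, h1⟩ := Local.padic_tate_intUnits_of_unramified ℓ (W.under (K := K)).Completion
    W.Completion hunr hφ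
  let E : RepSemiEquiv
      (Rep.ofMulDistribMulAction (MulAction.stabilizer (L ≃ₐ[K] L) W) W.integerUnits)
      (Rep.ofMulDistribMulAction
        (W.Completion ≃ₐ[(W.under (K := K)).Completion] W.Completion)
        (Local.padicIntUnits ℓ W.Completion)) :=
    RepSemiEquiv.ofMulEquiv (Place.decompEquiv (K := K) W) (MulEquiv.refl _) (fun σ m => rfl)
  haveI : IsCyclic (W.Completion ≃ₐ[(W.under (K := K)).Completion] W.Completion) := ⟨⟨φ, hφ⟩⟩
  haveI : IsCyclic (MulAction.stabilizer (L ≃ₐ[K] L) W) :=
    isCyclic_of_surjective (Place.decompEquiv (K := K) W).symm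
      (Place.decompEquiv (K := K) W).symm.surjective
  haveI := h0
  haveI := h1
  exact isZero_groupCohomology_succ_of_isCyclic' _ E.tateH0Equiv.toEquiv.subsingleton
    E.tateHm1Equiv.toEquiv.subsingleton n

/-- **Acyclicity of the integral blocks** at a rational prime over which `L/K` is unramified. -/
theorem isZero_groupCohomology_blockIntegerUnits (w : Place ℓ K)
    (hunr : ∀ W : Place ℓ L, Local.ramIdx (W.under (K := K)).integers W.integers = 1) (n : ℕ) :
    Limits.IsZero (groupCohomology
      (Rep.ofMulDistribMulAction (L ≃ₐ[K] L) (SemiLocal.blockIntegerUnits (L := L) w)) (n + 1)) := by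
  obtain ⟨W, rfl⟩ := Place.under_surjective (K := K) (L := L) w
  exact isZero_groupCohomology_of_coind (MulAction.stabilizer (L ≃ₐ[K] L) W) (blockProj W)
    (blockProj_smul W) (blockProj_hinj W) (blockProj_hsurj W) (n + 1)
    (isZero_groupCohomology_decomp_integerUnits W (hunr W) n)

/-- **(UT4) Acyclicity of the unramified semi-local units**: for a finite Galois extension `L/K`
of number fields and a rational prime `ℓ` over which `L/K` is unramified,
`Hⁿ(Gal(L/K), (𝓞_L ⊗ ℤ_ℓ)ˣ) = 0` for all `n ≥ 1`. -/
theorem isZero_groupCohomology_unitGroup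
    (hunr : ∀ W : Place ℓ L, Local.ramIdx (W.under (K := K)).integers W.integers = 1) (n : ℕ) :
    Limits.IsZero (groupCohomology
      (Rep.ofMulDistribMulAction (L ≃ₐ[K] L) (SemiLocal.unitGroup ℓ L)) (n + 1)) :=
  isZero_groupCohomology_of_mulEquiv (SemiLocal.integerBlockEquiv (K := K) (L := L))
    (fun σ u => funext fun w => SemiLocal.integerBlockEquiv_smul σ u w) (n + 1)
    (isZero_groupCohomology_pi n fun w => isZero_groupCohomology_blockIntegerUnits w hunr n)

end localvanish

end Fermat.Agent.CFT.PT8
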