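/-
S55 / PT8 (f.4), helper8, part 6: the product over all rational primes `ℓ ∉ S` of the unit groups
of the maximal orders of `ℚ_ℓ ⊗ L` is acyclic for `Gal(L/K)` when `L/K` is unramified outside `S`
(general Galois `L/K`).  Also the variants with the unramifiedness hypothesis stated through
inertia groups of prime ideals of `𝓞 L`.
-/
import Fermat.Agent.CFT.PT8.UT_helper8_Local
import Fermat.Agent.CFT.Global.G02_helper5_Unram

set_option autoImplicit false
set_option linter.unusedSectionVars false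
set_option linter.style.haveILetI false

open scoped TensorProduct NumberField Pointwise
open CategoryTheory groupCohomology Rep

namespace Fermat.Agent.CFT.PT8

open Fermat.Agent.CFT.Coh
open scoped SemiLocalRel
open scoped Fermat.Agent.CFT.Local.PadicBridge

section globalvanish

variable {K L : Type} [Field K] [NumberField K] [Field L] [NumberField L]
  [Algebra K L] [FiniteDimensional K L] [IsGalois K L]

/-- (UT4'), inertia form: if all inertia groups of `L/K` at the primes of `L` above `ℓ` are trivial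
then the semi-local units at `ℓ` are acyclic. -/
theorem isZero_groupCohomology_unitGroup_of_inertia {ℓ : ℕ} [Fact ℓ.Prime]
    (hin : ∀ Q : Ideal (𝓞 L), Q.IsPrime → ((ℓ : ℕ) : 𝓞 L) ∈ Q →
      ∀ σ : L ≃ₐ[K] L, (∀ x : 𝓞 L, σ • x - x ∈ Q) → σ = 1) (n : ℕ) :
    Limits.IsZero (groupCohomology
      (Rep.ofMulDistribMulAction (L ≃ₐ[K] L) (SemiLocal.unitGroup ℓ L)) (n + 1)) :=
  isZero_groupCohomology_unitGroup
    (fun W => W.ramIdx_eq_one_of_inertia_trivial (K := K)
      (hin W.toPrime inferInstance W.natCast_mem_toPrime)) n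

/-- **(UT5) Acyclicity of the unramified units outside `S`**: if `L/K` is unramified at all places
above the rational primes `ℓ ∉ S`, then `Hⁿ(Gal(L/K), ∏_{ℓ ∉ S} (𝓞_L ⊗ ℤ_ℓ)ˣ) = 0` for `n ≥ 1`. -/
theorem isZero_groupCohomology_pi_unitGroup (S : Set Nat.Primes)
    (hunr : ∀ ℓ : Nat.Primes, ℓ ∉ S → ∀ W : Place (ℓ : ℕ) L,
      Local.ramIdx (W.under (K := K)).integers W.integers = 1) (n : ℕ) :
    Limits.IsZero (groupCohomology
      (Rep.ofMulDistribMulAction (L ≃ₐ[K] L)
        (∀ ℓ : {ℓ : Nat.Primes // ℓ ∉ S}, SemiLocal.unitGroup ((ℓ : Nat.Primes) : ℕ) L)) (n + 1)) :=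
  isZero_groupCohomology_pi n fun ℓ => isZero_groupCohomology_unitGroup (hunr ℓ.1 ℓ.2) n

/-- (UT5'), inertia form. -/
theorem isZero_groupCohomology_pi_unitGroup_of_inertia (S : Set Nat.Primes)
    (hin : ∀ ℓ : Nat.Primes, ℓ ∉ S → ∀ Q : Ideal (𝓞 L), Q.IsPrime → (((ℓ : ℕ) : ℕ) : 𝓞 L) ∈ Q →
      ∀ σ : L ≃ₐ[K] L, (∀ x : 𝓞 L, σ • x - x ∈ Q) → σ = 1) (n : ℕ) :
    Limits.IsZero (groupCohomology
      (Rep.ofMulDistribMulAction (L ≃ₐ[K] L)
        (∀ ℓ : {ℓ : Nat.Primes // ℓ ∉ S}, SemiLocal.unitGroup ((ℓ : Nat.Primes) : ℕ) L)) (n + 1)) :=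
  isZero_groupCohomology_pi n fun ℓ =>
    isZero_groupCohomology_unitGroup_of_inertia (hin ℓ.1 ℓ.2) n

end globalvanish

end Fermat.Agent.CFT.PT8
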