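/-
S55 / PT8, helper8: the short exact sequence `0 → U^S_L → C_L → B_L → 0` of
`Gal(L/K)`-representations, and the acyclicity of `U^S_L` on all subgroups of `Gal(L/K)` when `L/K`
is unramified outside `S`.
-/
import Fermat.Agent.CFT.PT8.SC_helper8_Defs
import Fermat.Agent.CFT.PT8.UT_helper8_Global
import Fermat.Agent.CFT.PT8.PF_helper8_Instances
import Fermat.Agent.CFT.Global.PT4b_helper3_SecondIneq

set_option autoImplicit false
set_option linter.unusedSectionVars false
set_option linter.style.haveILetI false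

open scoped NumberField
open CategoryTheory groupCohomology Rep

namespace Fermat.Agent.CFT.PT8

open Fermat.Agent.CFT.PT6 Fermat.Agent.CFT.Coh

section homs

variable {G : Type} [Group G] {M M' : Type} [CommGroup M] [CommGroup M']
  [MulDistribMulAction G M] [MulDistribMulAction G M']

/-- An equivariant homomorphism of multiplicative `G`-modules as a morphism of representations. -/
noncomputable def repHomOfMonoidHom (φ : M →* M') (hφ : ∀ (g : G) (m : M), φ (g • m) = g • φ m) :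
    Rep.ofMulDistribMulAction G M ⟶ Rep.ofMulDistribMulAction G M' :=
  Rep.ofHom ⟨(MonoidHom.toAdditive φ).toIntLinearMap, fun g => by
    ext m
    exact congrArg Additive.ofMul (hφ g (Additive.toMul m))⟩

@[simp] lemma repHomOfMonoidHom_apply (φ : M →* M')
    (hφ : ∀ (g : G) (m : M), φ (g • m) = g • φ m) (m : Additive M) :
    (repHomOfMonoidHom φ hφ).hom m = Additive.ofMul (φ (Additive.toMul m)) := rfl

end homs

section seq

variable (K L : Type) [Field K] [NumberField K] [Field L] [NumberField L] [Algebra K L]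
  (S : Set Nat.Primes)

/-- `U^S_L` as a representation of `Gal(L/K)`. -/
noncomputable def exUnitsRep : Rep ℤ (L ≃ₐ[K] L) :=
  Rep.ofMulDistribMulAction (L ≃ₐ[K] L) (exUnits L S)

/-- **`B_L = J_L / (Lˣ · U^S_L)` as a representation of `Gal(L/K)`.** -/
noncomputable def sClassRep : Rep ℤ (L ≃ₐ[K] L) :=
  Rep.ofMulDistribMulAction (L ≃ₐ[K] L) (SClassGroup L S)

/-- `U^S_L ⟶ C_L`. -/
noncomputable def exUnitsToClassHom : exUnitsRep K L S ⟶ ideleClassRep K L :=
  repHomOfMonoidHom (exUnitsToClass (L := L) (S := S)) (fun _ _ => rfl)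

/-- `C_L ⟶ B_L`. -/
noncomputable def classToSClassHom : ideleClassRep K L ⟶ sClassRep K L S :=
  repHomOfMonoidHom (classToSClass (L := L) (S := S)) (fun g c => by
    obtain ⟨x, rfl⟩ := FinIdeleClass.mk_surjective c
    rfl)

/-- The short exact sequence `0 → U^S_L → C_L → B_L → 0`. -/
theorem exists_shortExact_sClass (hS : S.Nonempty) :
    ∃ h : exUnitsToClassHom K L S ≫ classToSClassHom K L S = 0,
      (ShortComplex.mk (exUnitsToClassHom K L S) (classToSClassHom K L S) h).ShortExact := by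
  apply shortExact_mk
  · intro u v huv
    exact (exUnitsToClass_injective hS) (congrArg Additive.toMul huv)
  · intro y
    obtain ⟨c, hc⟩ := classToSClass_surjective (L := L) (S := S) (Additive.toMul y)
    exact ⟨Additive.ofMul c, congrArg Additive.ofMul hc⟩
  · intro c
    constructor
    · intro hc
      have h1 : classToSClass (S := S) (Additive.toMul c) = 1 := congrArg Additive.toMul hc
      obtain ⟨u, hu⟩ := (exact_exUnitsToClass_classToSClass _).mp h1
      exact ⟨Additive.ofMul u, congrArg Additive.ofMul hu⟩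
    · rintro ⟨u, rfl⟩
      have h1 : classToSClass (S := S) (exUnitsToClass (Additive.toMul u)) = 1 :=
        (exact_exUnitsToClass_classToSClass _).mpr ⟨_, rfl⟩
      exact congrArg Additive.ofMul h1

end seq

section pi
variable (L : Type) [Field L] [NumberField L] (S : Set Nat.Primes)

open Classical in
/-- extension by `1` at the primes of `S`. -/
noncomputable def piToFun
    (u : ∀ ℓ : {ℓ : Nat.Primes // ℓ ∉ S}, SemiLocal.unitGroup ((ℓ : Nat.Primes) : ℕ) L)
    (ℓ : Nat.Primes) : (SemiLocal (ℓ : ℕ) L)ˣ :=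
  if h : ℓ ∈ S then 1 else ((u ⟨ℓ, h⟩ : SemiLocal.unitGroup (ℓ : ℕ) L) : (SemiLocal (ℓ : ℕ) L)ˣ)

variable {L S}

lemma piToFun_of_mem
    (u : ∀ ℓ : {ℓ : Nat.Primes // ℓ ∉ S}, SemiLocal.unitGroup ((ℓ : Nat.Primes) : ℕ) L)
    {ℓ : Nat.Primes} (h : ℓ ∈ S) : piToFun L S u ℓ = 1 := dif_pos h

lemma piToFun_of_not_mem
    (u : ∀ ℓ : {ℓ : Nat.Primes // ℓ ∉ S}, SemiLocal.unitGroup ((ℓ : Nat.Primes) : ℕ) L)
    {ℓ : Nat.Primes} (h : ℓ ∉ S) :
    piToFun L S u ℓ = ((u ⟨ℓ, h⟩ : SemiLocal.unitGroup (ℓ : ℕ) L) : (SemiLocal (ℓ : ℕ) L)ˣ) :=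
  dif_neg h

lemma piToFun_mem_unitGroup
    (u : ∀ ℓ : {ℓ : Nat.Primes // ℓ ∉ S}, SemiLocal.unitGroup ((ℓ : Nat.Primes) : ℕ) L)
    (ℓ : Nat.Primes) : piToFun L S u ℓ ∈ SemiLocal.unitGroup (ℓ : ℕ) L := by
  by_cases h : ℓ ∈ S
  · rw [piToFun_of_mem u h]; exact (SemiLocal.unitGroup (ℓ : ℕ) L).one_mem
  · rw [piToFun_of_not_mem u h]; exact (u ⟨ℓ, h⟩).2

variable (L S)

/-- `U^S_L ≃ ∏_{ℓ ∉ S} (𝓞_L ⊗ ℤ_ℓ)ˣ`. -/
noncomputable def exUnitsEquivPi : exUnits L S ≃*
    (∀ ℓ : {ℓ : Nat.Primes // ℓ ∉ S}, SemiLocal.unitGroup ((ℓ : Nat.Primes) : ℕ) L) where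
  toFun x := fun ℓ => ⟨(x : FinIdele L) ℓ.1, x.2.1 ℓ.1 ℓ.2⟩
  invFun u := ⟨⟨piToFun L S u, Filter.Eventually.of_forall (piToFun_mem_unitGroup u)⟩,
    fun ℓ _ => piToFun_mem_unitGroup u ℓ, fun ℓ hℓ => piToFun_of_mem u hℓ⟩
  left_inv x := by
    apply Subtype.ext
    apply RestrictedProduct.ext
    intro ℓ
    show piToFun L S (fun ℓ => ⟨(x : FinIdele L) ℓ.1, x.2.1 ℓ.1 ℓ.2⟩) ℓ = (x : FinIdele L) ℓ
    by_cases h : ℓ ∈ S
    · rw [piToFun_of_mem _ h, x.2.2 ℓ h]
    · rw [piToFun_of_not_mem _ h]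
  right_inv u := by
    funext ℓ
    apply Subtype.ext
    show piToFun L S u ℓ.1 = _
    rw [piToFun_of_not_mem u ℓ.2]
  map_mul' x y := rfl

lemma exUnitsEquivPi_smul {G : Type*} [Group G] [MulSemiringAction G L] (g : G)
    (x : exUnits L S) : exUnitsEquivPi L S (g • x) = g • exUnitsEquivPi L S x := rfl

end pi

section acyclic

variable (K L : Type) [Field K] [NumberField K] [Field L] [NumberField L] [Algebra K L]
  [FiniteDimensional K L] [IsGalois K L] (S : Set Nat.Primes)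

/-- The hypothesis "`L/K` is unramified outside `S`", in the inertia form. -/
def UnramifiedOutsideSet : Prop :=
  ∀ ℓ : Nat.Primes, ℓ ∉ S → ∀ Q : Ideal (𝓞 L), Q.IsPrime → (((ℓ : ℕ) : ℕ) : 𝓞 L) ∈ Q →
    ∀ σ : L ≃ₐ[K] L, (∀ x : 𝓞 L, σ • x - x ∈ Q) → σ = 1

variable {K L S}

/-- `U^S_L` is acyclic for `Gal(L/K)` when `L/K` is unramified outside `S`. -/
theorem isZero_groupCohomology_exUnitsRep (hin : UnramifiedOutsideSet K L S) (n : ℕ) :
    Limits.IsZero (groupCohomology (exUnitsRep K L S) (n + 1)) :=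
  isZero_groupCohomology_of_mulEquiv (exUnitsEquivPi L S) (exUnitsEquivPi_smul L S) (n + 1)
    (isZero_groupCohomology_pi_unitGroup_of_inertia S hin n)

/-- Unramifiedness passes to the subextension `L / L^T`. -/
theorem UnramifiedOutsideSet.fixedField (hin : UnramifiedOutsideSet K L S)
    (T : Subgroup (L ≃ₐ[K] L)) :
    UnramifiedOutsideSet (IntermediateField.fixedField T) L S := by
  intro ℓ hℓ Q hQ hℓQ σ hσ
  have h1 := hin ℓ hℓ Q hQ hℓQ
    (((IntermediateField.subgroupEquivAlgEquiv T).symm σ : T) : L ≃ₐ[K] L) (fun x => by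
      have : ((((IntermediateField.subgroupEquivAlgEquiv T).symm σ : T) : L ≃ₐ[K] L) • x : 𝓞 L) =
          σ • x := by
        apply NumberField.RingOfIntegers.ext
        rfl
      rw [this]
      exact hσ x)
  have h2 : (IntermediateField.subgroupEquivAlgEquiv T).symm σ = 1 := Subtype.ext h1
  exact (MulEquiv.map_eq_one_iff _).mp h2

/-- **`U^S_L` is acyclic on every subgroup of `Gal(L/K)`** when `L/K` is unramified outside `S`. -/
theorem isZero_groupCohomology_res_exUnitsRep (hin : UnramifiedOutsideSet K L S)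
    (T : Subgroup (L ≃ₐ[K] L)) (n : ℕ) :
    Limits.IsZero (groupCohomology (res T.subtype (exUnitsRep K L S)) (n + 1)) := by
  have h0 := isZero_groupCohomology_exUnitsRep (hin.fixedField T) n
  have hb := mapOf_bijective (A := exUnitsRep (IntermediateField.fixedField T) L S)
    (B := res T.subtype (exUnitsRep K L S)) (IntermediateField.subgroupEquivAlgEquiv T)
    (LinearEquiv.refl ℤ _) (fun t a => rfl) (n + 1)
  rw [ModuleCat.isZero_iff_subsingleton] at h0 ⊢
  exact (Equiv.ofBijective _ hb).symm.subsingleton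

end acyclic

end Fermat.Agent.CFT.PT8
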