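/-
S55 / PT8, helper8: helper7's hypothesis `UnitsCocyclesSplit S` (every 1-cocycle of a subgroup
`T ≤ Gal(L/ℚ)` with values in `U^S_L` is a coboundary, `L/ℚ` unramified outside `S`) from the
acyclicity of `U^S_L` on all subgroups.
-/
import Fermat.Agent.CFT.PT8.SC_helper8_Seq
import Fermat.Agent.CFT.Arith.UnitsSplit_helper7
import Fermat.Agent.CFT.Coh.CohTriv_helper1_PGroup

set_option autoImplicit false
set_option linter.unusedSectionVars false

open scoped NumberField
open CategoryTheory groupCohomology Rep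

namespace Fermat.Agent.CFT.PT8

open Fermat.Agent.CFT.PT6 Fermat.Agent.CFT.Coh

/-- **`H¹(T, U^S_L) = 0` in cocycle form** (helper7's `UnitsCocyclesSplit`). -/
theorem unitsCocyclesSplit (S : Set Nat.Primes) : Arith.UnitsCocyclesSplit S := by
  intro L _ _ _ hin T u hu hcoc
  have h1 := isZero_groupCohomology_res_exUnitsRep (K := ℚ) (L := L) (S := S) hin T 0
  let c : T → (res T.subtype (exUnitsRep ℚ L S)).V := fun t =>
    Additive.ofMul (⟨u t, hu t⟩ : exUnits L S)
  obtain ⟨v, hv⟩ := exists_eq_sub_of_isZero_H1 (res T.subtype (exUnitsRep ℚ L S)) h1 c (by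
    intro s t
    show Additive.ofMul (⟨u (s * t), hu (s * t)⟩ : exUnits L S) =
      Additive.ofMul ((s : L ≃ₐ[ℚ] L) • (⟨u t, hu t⟩ : exUnits L S)) +
        Additive.ofMul (⟨u s, hu s⟩ : exUnits L S)
    rw [← ofMul_mul]
    congr 1
    apply Subtype.ext
    show u (s * t) = (s : L ≃ₐ[ℚ] L) • u t * u s
    rw [hcoc, mul_comm])
  refine ⟨((Additive.toMul v : exUnits L S) : FinIdele L), (Additive.toMul v : exUnits L S).2,
    fun t => ?_⟩
  have h2 := hv t
  have h3 : (⟨u t, hu t⟩ : exUnits L S) =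
      ((t : L ≃ₐ[ℚ] L) • (Additive.toMul v : exUnits L S)) / (Additive.toMul v : exUnits L S) :=
    congrArg Additive.toMul h2
  exact congrArg Subtype.val h3

end Fermat.Agent.CFT.PT8
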