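/-
S55 / PT8, helper8: (P1b) the `S`-class module `B_L = J_L/(Lˣ U^S_L)` of a Galois extension `L/K`
of number fields, unramified outside `S ≠ ∅`, with `ζ_p ∈ L` (`p` odd):
* `Hⁿ⁺¹(T, C_L) → Hⁿ⁺¹(T, B_L)` is bijective for every subgroup `T ≤ Gal(L/K)`;
* `B_L` carries a `p`-primary fundamental class (helper4's `IsPFundamental`);
* `H³(T, B_L)[p] = 0` for every subgroup `T`.
-/
import Fermat.Agent.CFT.PT8.SC_helper8_Seq
import Fermat.Agent.CFT.Global.PT4f_helper3_PFund

set_option autoImplicit false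
set_option linter.unusedSectionVars false
set_option linter.style.haveILetI false

open scoped NumberField
open CategoryTheory groupCohomology Rep

namespace Fermat.Agent.CFT.PT8

open Fermat.Agent.CFT.PT6 Fermat.Agent.CFT.Coh Fermat.Agent.CFT.PT4

variable {K L : Type} [Field K] [NumberField K] [Field L] [NumberField L] [Algebra K L]
  [FiniteDimensional K L] [IsGalois K L] {S : Set Nat.Primes}

/-- **`Hⁿ⁺¹(T, C_L) → Hⁿ⁺¹(T, B_L)` is bijective** for every subgroup `T` of `Gal(L/K)`. -/
theorem map_classToSClass_bijective (hS : S.Nonempty) (hin : UnramifiedOutsideSet K L S)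
    (T : Subgroup (L ≃ₐ[K] L)) (n : ℕ) :
    Function.Bijective (groupCohomology.map (A := res T.subtype (ideleClassRep K L))
      (B := res T.subtype (sClassRep K L S)) (MonoidHom.id T)
      ((resFunctor T.subtype).map (classToSClassHom K L S)) (n + 1)).hom := by
  obtain ⟨h, hX⟩ := exists_shortExact_sClass K L S hS
  exact map_res_g_bijective hX (isZero_groupCohomology_res_exUnitsRep hin) T n

variable {p : ℕ} [hp : Fact p.Prime]

/-- **`B_L` has a `p`-primary fundamental class.** -/
theorem exists_isPFundamental_sClassRep (hp2 : p ≠ 2) (hS : S.Nonempty)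
    (hin : UnramifiedOutsideSet K L S) (hη : ∃ η : L, IsPrimitiveRoot η p) :
    ∃ γ : groupCohomology (sClassRep K L S) 2, IsPFundamental p (sClassRep K L S) γ := by
  obtain ⟨γ, hγ⟩ := exists_isPFundamental hp2 K L hη
  obtain ⟨h, hX⟩ := exists_shortExact_sClass K L S hS
  refine ⟨(groupCohomology.map (MonoidHom.id (L ≃ₐ[K] L)) (classToSClassHom K L S) 2).hom γ, ?_⟩
  rw [isPFundamental_iff] at hγ ⊢
  exact IsPFundK.of_shortExact hX (isZero_groupCohomology_res_exUnitsRep hin) hγ

/-- **`H³(T, B_L)[p] = 0`** for every subgroup `T` of `Gal(L/K)`. -/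
theorem eq_zero_of_nsmul_H3_res_sClassRep (hp2 : p ≠ 2) (hS : S.Nonempty)
    (hin : UnramifiedOutsideSet K L S) (hη : ∃ η : L, IsPrimitiveRoot η p)
    (T : Subgroup (L ≃ₐ[K] L)) (x : groupCohomology (res T.subtype (sClassRep K L S)) 3)
    (hx : p • x = 0) : x = 0 := by
  obtain ⟨h, hX⟩ := exists_shortExact_sClass K L S hS
  refine torsion_free_of_shortExact hX (isZero_groupCohomology_res_exUnitsRep hin) 2
    (fun T' y hy => ?_) T x hx
  exact eq_zero_of_pow_nsmul_H3_res hp2 K L hη T' y 1 (by rw [pow_one]; exact hy)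

end Fermat.Agent.CFT.PT8
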