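/-
S55 / CFT (PT8, (P6) assembly) — helper8.
The global `p`-class formation on `𝔻 = DSm S = 𝕁/(ℚ_Sˣ·𝕌^S)`:
`PLevelFormation (levelBasis S) p (DSm S)` from
* helper3's cofinal family of levels containing `ζ_p` (+ `pcof`),
* `exists_isPFundamental_sClassRep` / `eq_zero_of_nsmul_H3_res_sClassRep` (finite levels) transported
  along the identification (H7.2) `Res (sClassRep ℚ F S) ≅ levelRep (DSm S) Gal(Ω/F)`,
* helper7's `fin_DSm` / `hker_DSm` (helper1's `fin_of_addEquiv` / `rec_ker_of_addEquiv` through the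
  identification (H7.3) `(DSm S)^{Gal(Ω/E)} ≃ J_E/(Eˣ U^S_E)`), with `unitsCocyclesSplit`.
The identification (H7.2) is an explicit hypothesis here (`LevelIsoHyp`).
-/
import Fermat.Agent.CFT.PT8.SC_helper8_Main
import Fermat.Agent.CFT.Sm.CF_helper4_PFormation
import Fermat.Agent.CFT.Global.PT4g_helper3_PCof
import Fermat.Agent.CFT.Global.PT6_helper1_RecKer
import Fermat.Agent.CFT.Global.LG_helper2_Level
import Fermat.Agent.CFT.Arith.DSFin_helper7
import Fermat.Agent.CFT.PT8.UnitsSplit_helper8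
import Fermat.Agent.CFT.Arith.Unr_lead
import Fermat.Agent.CFT.Coh.PFundTransport_helper4

set_option autoImplicit false
set_option linter.unusedSectionVars false
set_option linter.style.haveILetI false

open scoped NumberField
open CategoryTheory groupCohomology

namespace Fermat.Agent.CFT.PT8

open Fermat.Agent.CFT Fermat.Agent.CFT.Arith Fermat.Agent.CFT.Sm Fermat.Agent.CFT.Coh
  Fermat.Agent.CFT.PT4

/-- `Ω = AlgebraicClosure ℚ`. -/
local notation "Ω" => AlgebraicClosure ℚ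
/-- `Γ = Gal(Ω/ℚ)`. -/
local notation "Γ" => (AlgebraicClosure ℚ ≃ₐ[ℚ] AlgebraicClosure ℚ)

variable (S : Finset Nat.Primes)

/-- **(H7.2)** as a hypothesis: at every level `F` the level representation of `𝔻` is the
`S`-class group `J_F/(Fˣ U^S_F)` (along `Γ ⧸ Gal(Ω/F) ≃ Gal(F/ℚ)`). -/
def LevelIsoHyp : Prop :=
  ∀ (F : IntermediateField ℚ Ω), IsLevel S F → ∀ [NumberField ↥F] [Normal ℚ ↥F]
    [(F.fixingSubgroup).Normal],
    Nonempty (Rep.res (galQuot F).toMonoidHom (sClassRep ℚ ↥F (S : Set Nat.Primes)) ≅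
      levelRep (DSm S) F.fixingSubgroup)

variable {S}

lemma bijective_hom_of_iso {G : Type} [Group G] {A B : Rep.{0} ℤ G} (e : A ≅ B) :
    Function.Bijective e.hom.hom := by
  refine Function.bijective_iff_has_inverse.mpr ⟨e.inv.hom, fun x => ?_, fun x => ?_⟩
  · exact congrArg (fun f => f.hom x) e.hom_inv_id
  · exact congrArg (fun f => f.hom x) e.inv_hom_id

variable {p : ℕ} [hp : Fact p.Prime]

/-- the inertia form of "unramified outside `S`" for a level. -/
lemma unramifiedOutsideSet_of_isLevel {F : IntermediateField ℚ Ω} (hF : IsLevel S F)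
    [NumberField ↥F] [IsGalois ℚ ↥F] :
    UnramifiedOutsideSet ℚ ↥F (S : Set Nat.Primes) := fun ℓ hℓ Q hQ hℓQ σ hσ =>
  inertia_eq_one_of_isUnramifiedOutside hF.1 ℓ (fun h => hℓ (Finset.mem_coe.mpr h)) Q hQ hℓQ σ hσ

/-- **`fund`**: the level representations of `𝔻` at the levels containing `ζ_p` carry `p`-primary
fundamental classes. -/
theorem exists_isPFundamental_levelRep_DSm (hp2 : p ≠ 2)
    (hpS : (⟨p, hp.out⟩ : Nat.Primes) ∈ S) (hι : LevelIsoHyp S)
    (V : Subgroup Γ) [V.Normal] (hV : V ∈ (zetaLevelFamily hp.out hpS).lev) :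
    ∃ γ : groupCohomology (levelRep (DSm S) V) 2, IsPFundamental p (levelRep (DSm S) V) γ := by
  obtain ⟨F, hF, hζ, rfl⟩ := hV
  haveI := hF.finiteDimensional
  haveI : NumberField ↥F := numberField_of_finiteDimensional
  haveI := hF.normal
  haveI := hF.isGalois
  obtain ⟨ι⟩ := hι F hF
  have hS : (S : Set Nat.Primes).Nonempty := ⟨_, Finset.mem_coe.mpr hpS⟩
  obtain ⟨γ, hγ⟩ := exists_isPFundamental_sClassRep (K := ℚ) (L := ↥F) hp2 hS
    (unramifiedOutsideSet_of_isLevel hF) hζ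
  exact ⟨_, hγ.of_injective (galQuot F).toMonoidHom (galQuot F).injective _ ι.hom
    (bijective_hom_of_iso ι)⟩

/-- **`h3`**: `H³` of all subgroups of the finite quotients at the levels containing `ζ_p` has no
`p`-torsion. -/
theorem eq_zero_of_nsmul_H3_levelRep_DSm (hp2 : p ≠ 2)
    (hpS : (⟨p, hp.out⟩ : Nat.Primes) ∈ S) (hι : LevelIsoHyp S)
    (V : Subgroup Γ) [V.Normal] (hV : V ∈ (zetaLevelFamily hp.out hpS).lev)
    (T : Subgroup (Γ ⧸ V)) (x : groupCohomology (Rep.res T.subtype (levelRep (DSm S) V)) 3)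
    (hx : p • x = 0) : x = 0 := by
  obtain ⟨F, hF, hζ, rfl⟩ := hV
  haveI := hF.finiteDimensional
  haveI : NumberField ↥F := numberField_of_finiteDimensional
  haveI := hF.normal
  haveI := hF.isGalois
  obtain ⟨ι⟩ := hι F hF
  have hS : (S : Set Nat.Primes).Nonempty := ⟨_, Finset.mem_coe.mpr hpS⟩
  refine torsion_free_of_injective 3
    (fun T' y hy => eq_zero_of_nsmul_H3_res_sClassRep (K := ℚ) (L := ↥F) hp2 hS
      (unramifiedOutsideSet_of_isLevel hF) hζ T' y hy)
    ((galQuot F).toMonoidHom.comp T.subtype)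
    ((galQuot F).injective.comp Subtype.val_injective) _
    ((Rep.resFunctor T.subtype).map ι.hom) ?_ x hx
  exact bijective_hom_of_iso ι

/-- **The level formation on `𝔻`** (levels containing `ζ_p`). -/
noncomputable def dsmLevelFormation (hp2 : p ≠ 2) (hpS : (⟨p, hp.out⟩ : Nat.Primes) ∈ S)
    (hι : LevelIsoHyp S) : PLevelFormation (levelBasis S) p (DSm S) where
  toLevelFamily := zetaLevelFamily hp.out hpS
  fund V _ hV := exists_isPFundamental_levelRep_DSm hp2 hpS hι V hV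
  pcof := zetaLevelFamily_pcof hp.out hpS
  fin U hU := Arith.fin_DSm ⟨_, hpS⟩ (unitsCocyclesSplit _) U hU

/-- **The `p`-class formation on `𝔻 = DSm S`.** -/
noncomputable def dsmFormation (hp2 : p ≠ 2) (hpS : (⟨p, hp.out⟩ : Nat.Primes) ∈ S)
    (hι : LevelIsoHyp S) : PClassFormation (levelBasis S) p (DSm S) :=
  (dsmLevelFormation hp2 hpS hι).toPClassFormation

variable (p) in
lemma exists_isPrimitiveRoot_omega_p : ∃ ζ : Ω, IsPrimitiveRoot ζ p := by
  obtain ⟨ζ, hζ⟩ := exists_isPrimitiveRoot_omega hp.out 1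
  rw [pow_one] at hζ
  exact ⟨ζ, hζ⟩

variable (p) in
/-- `ℚ(ζ_p) ⊆ Ω`. -/
noncomputable def zetaField : IntermediateField ℚ Ω :=
  IntermediateField.adjoin ℚ {Classical.choose (exists_isPrimitiveRoot_omega_p p)}

variable (p) in
/-- `U₀ = Gal(Ω/ℚ(ζ_p))`. -/
noncomputable def zetaSubgroup : Subgroup Γ := (zetaField p).fixingSubgroup

lemma zetaField_spec : ∃ ζ : Ω, IsPrimitiveRoot ζ p ∧ ζ ∈ zetaField p :=
  ⟨_, Classical.choose_spec (exists_isPrimitiveRoot_omega_p p),
    IntermediateField.mem_adjoin_simple_self ℚ _⟩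

lemma isLevel_zetaField (hpS : (⟨p, hp.out⟩ : Nat.Primes) ∈ S) : IsLevel S (zetaField p) :=
  isLevel_of_le_adjoin_of_pow_pow_eq_one' hp.out hpS 1
    (by rw [pow_one]; exact (Classical.choose_spec (exists_isPrimitiveRoot_omega_p p)).pow_eq_one)
    le_rfl

/-- `U₀` is open. -/
lemma isOpen_zetaSubgroup (hpS : (⟨p, hp.out⟩ : Nat.Primes) ∈ S) :
    (levelBasis S).IsOpen (zetaSubgroup p) :=
  ⟨_, fixingSubgroup_mem_levelBasis (isLevel_zetaField hpS), le_rfl⟩

/-- **The formation on `𝔻` is global below `U₀ = Gal(Ω/ℚ(ζ_p))`.** -/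
theorem dsmFormation_isGlobalBelow (hp2 : p ≠ 2) (hpS : (⟨p, hp.out⟩ : Nat.Primes) ∈ S)
    (hι : LevelIsoHyp S) :
    (dsmFormation hp2 hpS hι).IsGlobalBelow (zetaSubgroup p) :=
  (dsmLevelFormation hp2 hpS hι).isGlobalBelow (zetaSubgroup p)
    (fun V _ hV T x hx => eq_zero_of_nsmul_H3_levelRep_DSm hp2 hpS hι V hV T x hx)
    (hker_DSm hp2 hpS (unitsCocyclesSplit _)
      (Classical.choose_spec (exists_isPrimitiveRoot_omega_p p)) _)

end Fermat.Agent.CFT.PT8
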