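/-
S55 / CFT (PT8, (P6) assembly, unconditional form) — helper8.
The global `p`-class formation on `𝔻 = DSm S`, global below `U₀ = Gal(Ω/ℚ(ζ_p))`, with helper3's
`sClassLevelIso'` (H7.2) plugged into `Assembly_helper8`.
-/
import Fermat.Agent.CFT.PT8.Assembly_helper8
import Fermat.Agent.CFT.Global.PT4j_helper3_LCD

set_option autoImplicit false
set_option linter.unusedSectionVars false
set_option linter.style.haveILetI false

open scoped NumberField
open CategoryTheory groupCohomology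

namespace Fermat.Agent.CFT.PT8

open Fermat.Agent.CFT Fermat.Agent.CFT.Arith Fermat.Agent.CFT.Sm Fermat.Agent.CFT.Coh
  Fermat.Agent.CFT.PT4

/-- `Ω = AlgebraicClosure ℚ`. -/
local notation "Ω" => AlgebraicClosure ℚ
/-- `Γ = Gal(Ω/ℚ)`. -/
local notation "Γ" => (AlgebraicClosure ℚ ≃ₐ[ℚ] AlgebraicClosure ℚ)

variable {S : Finset Nat.Primes} {p : ℕ} [hp : Fact p.Prime]

/-- **(H7.2)** holds (helper3's `sClassLevelIso'`). -/
theorem levelIsoHyp (hS : S.Nonempty) : LevelIsoHyp S := fun F hF _ _ _ => by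
  haveI := hF.isGalois
  exact ⟨sClassLevelIso' F hF.1 hS⟩

/-- **The global `p`-class formation on `𝔻 = DSm S`** (`p` odd, `p ∈ S`). -/
noncomputable def dsmForm (hp2 : p ≠ 2) (hpS : (⟨p, hp.out⟩ : Nat.Primes) ∈ S) :
    PClassFormation (levelBasis S) p (DSm S) :=
  dsmFormation hp2 hpS (levelIsoHyp ⟨_, hpS⟩)

/-- **It is global below `U₀ = Gal(Ω/ℚ(ζ_p))`.** -/
theorem dsmForm_isGlobalBelow (hp2 : p ≠ 2) (hpS : (⟨p, hp.out⟩ : Nat.Primes) ∈ S) :
    (dsmForm hp2 hpS).IsGlobalBelow (zetaSubgroup p) :=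
  dsmFormation_isGlobalBelow hp2 hpS (levelIsoHyp ⟨_, hpS⟩)

end Fermat.Agent.CFT.PT8
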