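/-
S55 / PT8, helper8: the SYLOW CRITERION for `p`-primary fundamental classes.
If `γ ∈ H²(G, A)` is such that for every `p`-subgroup `P` of the finite group `G` one has
`H¹(P, A) = 0`, `|H²(P, A)|` divides `|P|` and `res_P γ` has order divisible by `|P|`, then `γ` is a
`p`-primary fundamental class in the sense of helper4's `IsPFundamental`.
-/
import Fermat.Agent.CFT.PT8.PF_helper8_MapOf
import Fermat.Agent.CFT.Coh.PFund_helper4

set_option autoImplicit false
set_option linter.unusedSectionVars false

open CategoryTheory groupCohomology Rep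

namespace Fermat.Agent.CFT.PT8

open Fermat.Agent.CFT.Coh

section algebra

/-- A finite additive group with an element whose order is a multiple of `N`, and whose cardinality
divides `N`, is cyclic of order `N` generated by that element. -/
lemma zmultiples_eq_top_of_card_dvd {X : Type*} [AddCommGroup X] (N : ℕ) (hN : N ≠ 0)
    (hcard : Nat.card X ∣ N) (y : X) (hy : ∀ k : ℕ, k • y = 0 → N ∣ k) :
    AddSubgroup.zmultiples y = ⊤ := by
  have hX0 : Nat.card X ≠ 0 := fun h0 => hN (by rw [h0, zero_dvd_iff] at hcard; exact hcard)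
  haveI : Finite X := Nat.finite_of_card_ne_zero hX0
  have h1 : N ∣ addOrderOf y := hy _ (addOrderOf_nsmul_eq_zero y)
  have h2 : addOrderOf y ∣ Nat.card X := addOrderOf_dvd_natCard y
  have h3 : Nat.card X = N := Nat.dvd_antisymm hcard (h1.trans h2)
  have h4 : addOrderOf y = N := Nat.dvd_antisymm (h3 ▸ h2) h1
  apply AddSubgroup.eq_top_of_card_eq
  rw [Nat.card_zmultiples, h4, h3]

/-- A class killed by a power of `p` and by an integer prime to `p` vanishes. -/
lemma eq_zero_of_pow_nsmul_of_coprime_nsmul {p : ℕ} (hp : p.Prime) {X : Type*} [AddCommGroup X]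
    (x : X) (k m : ℕ) (hk : p ^ k • x = 0) (hm : m • x = 0) (hpm : ¬ p ∣ m) : x = 0 := by
  have h1 : addOrderOf x ∣ Nat.gcd (p ^ k) m :=
    Nat.dvd_gcd (addOrderOf_dvd_of_nsmul_eq_zero hk) (addOrderOf_dvd_of_nsmul_eq_zero hm)
  have h2 : Nat.Coprime (p ^ k) m :=
    Nat.Coprime.pow_left k ((Nat.Prime.coprime_iff_not_dvd hp).mpr hpm)
  rw [h2.gcd_eq_one, Nat.dvd_one] at h1
  exact AddMonoid.addOrderOf_eq_one_iff.mp h1

/-- The abstract Sylow argument: `r : X → Y` a homomorphism which is injective on `p`-primary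
elements, `X` killed by `N = p ^ a * s'` (`p ∤ s'`), `|Y|` divides `p ^ a` and `r γ` has order
divisible by `p ^ a`. Then the `p`-primary part of `X` is cyclic generated by (the `p`-part of) `γ`,
whose order is divisible by `p ^ a`. -/
lemma pPrimary_gen_of_sylow {X Y : Type*} [AddCommGroup X] [AddCommGroup Y] (r : X →+ Y) {p : ℕ}
    (hp : p.Prime) (N a s' : ℕ) (hN : N = p ^ a * s') (hcop : ¬ p ∣ s')
    (hNX : ∀ x : X, N • x = 0)
    (hinj : ∀ (x : X) (j : ℕ), p ^ j • x = 0 → r x = 0 → x = 0)
    (γ : X) (hcardY : Nat.card Y ∣ p ^ a) (hord : ∀ m : ℕ, m • r γ = 0 → p ^ a ∣ m) :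
    (∀ x : X, (∃ j : ℕ, p ^ j • x = 0) → ∃ m : ℤ, x = m • γ) ∧
      (∀ m : ℤ, m • γ = 0 → ((p ^ a : ℕ) : ℤ) ∣ m) := by
  have hpa : p ^ a ≠ 0 := pow_ne_zero _ hp.ne_zero
  have htop := zmultiples_eq_top_of_card_dvd (p ^ a) hpa hcardY (r γ) hord
  have hfin : Finite Y := Nat.finite_of_card_ne_zero (fun h0 => by
    rw [h0, zero_dvd_iff] at hcardY; exact hpa hcardY)
  have hYkill : ∀ y : Y, (p ^ a) • y = 0 := by
    intro y
    obtain ⟨d, hd⟩ := hcardY
    rw [hd, mul_comm, mul_smul, card_nsmul_eq_zero', smul_zero]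
  constructor
  · rintro x ⟨j, hx⟩
    have hmem : r x ∈ AddSubgroup.zmultiples (r γ) := by rw [htop]; exact AddSubgroup.mem_top _
    obtain ⟨m₀, hm₀⟩ := AddSubgroup.mem_zmultiples_iff.mp hmem
    have hcop' : Nat.Coprime s' (p ^ a) := by
      apply Nat.Coprime.pow_right
      rw [Nat.coprime_comm, Nat.Prime.coprime_iff_not_dvd hp]
      exact hcop
    obtain ⟨v, c, hvc⟩ : ∃ v c : ℤ, v * s' = 1 + ((p ^ a : ℕ) : ℤ) * c := by
      have hc : IsCoprime (s' : ℤ) ((p ^ a : ℕ) : ℤ) := Nat.isCoprime_iff_coprime.mpr hcop'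
      obtain ⟨u, w, huw⟩ := hc
      exact ⟨u, -w, by linear_combination huw⟩
    have hkill : (p ^ a) • ((v * s') • γ) = 0 := by
      have h1 : (N : ℤ) • γ = 0 := by rw [natCast_zsmul]; exact hNX γ
      rw [← natCast_zsmul, smul_smul]
      have : ((p ^ a : ℕ) : ℤ) * (v * s') = v * (N : ℤ) := by
        rw [hN]; push_cast; ring
      rw [this, mul_smul, h1, smul_zero]
    have hru : r ((v * s') • γ) = r γ := by
      rw [map_zsmul, hvc, add_smul, one_smul, mul_comm, mul_smul, natCast_zsmul, hYkill,
        smul_zero, add_zero]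
    refine ⟨m₀ * (v * s'), ?_⟩
    have hz : x - (m₀ * (v * s')) • γ = 0 := by
      apply hinj _ (j + a)
      · have e1 : p ^ (j + a) • x = 0 := by rw [pow_add, mul_comm, mul_smul, hx, smul_zero]
        have e2 : p ^ (j + a) • ((m₀ * (v * s')) • γ) = 0 := by
          rw [pow_add, mul_smul, mul_smul m₀, smul_comm (p ^ a) m₀, hkill, smul_zero, smul_zero]
        rw [smul_sub, e1, e2, sub_zero]
      · rw [map_sub, mul_smul, map_zsmul, hru, hm₀, sub_self]
    exact sub_eq_zero.mp hz
  · intro m hm
    have h1 : m • r γ = 0 := by rw [← map_zsmul, hm, map_zero]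
    have h2 : m.natAbs • r γ = 0 := by
      rcases Int.natAbs_eq m with h | h
      · rw [h, natCast_zsmul] at h1; exact h1
      · rw [h, neg_smul, natCast_zsmul, neg_eq_zero] at h1; exact h1
    exact Int.natCast_dvd.mpr (hord _ h2)

end algebra

section criterion

variable {k : Type} [CommRing k] {G : Type} [Group G] [Finite G] (A : Rep.{0} k G) (p : ℕ)
  [hp : Fact p.Prime]

/-- The hypotheses of the Sylow criterion: conditions on all `p`-subgroups of `G`. -/
structure PSubgroupData (γ : groupCohomology A 2) : Prop where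
  h1 : ∀ P : Subgroup G, IsPGroup p P → Limits.IsZero (groupCohomology (res P.subtype A) 1)
  card : ∀ P : Subgroup G, IsPGroup p P →
    Nat.card (groupCohomology (res P.subtype A) 2) ∣ Nat.card P
  ord : ∀ P : Subgroup G, IsPGroup p P → ∀ m : ℕ, m • (resMap P A 2).hom γ = 0 → Nat.card P ∣ m

variable {A p}

/-- The generalized restriction along an arbitrary homomorphism. -/
noncomputable abbrev resAlong {Q : Type} [Group Q] (f : Q →* G) (n : ℕ) :
    groupCohomology A n ⟶ groupCohomology (res f A) n :=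
  mapOf (A := A) (B := res f A) f LinearMap.id (fun _ _ => rfl) n

/-- The data for an arbitrary injective homomorphism from a `p`-group. -/
theorem PSubgroupData.along {γ : groupCohomology A 2} (h : PSubgroupData A p γ)
    {Q : Type} [Group Q] (f : Q →* G) (hf : Function.Injective f) (hQ : IsPGroup p Q) :
    Subsingleton (groupCohomology (res f A) 1) ∧
    Nat.card (groupCohomology (res f A) 2) ∣ Nat.card Q ∧
    ∀ m : ℕ, m • (resAlong (A := A) f 2).hom γ = 0 → Nat.card Q ∣ m := by
  let P : Subgroup G := f.range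
  let e : Q ≃* P := MonoidHom.ofInjective hf
  have hP : IsPGroup p P := hQ.of_equiv e
  have hcardPQ : Nat.card P = Nat.card Q := (Nat.card_congr e.toEquiv).symm
  have hcompat : ∀ (q : Q) (a : (res P.subtype A).V),
      (LinearEquiv.refl k A.V).toLinearMap ((res P.subtype A).ρ (e.toMonoidHom q) a) =
        (res f A).ρ q ((LinearEquiv.refl k A.V).toLinearMap a) := fun _ _ => rfl
  have hE : ∀ n : ℕ, Function.Bijective
      (mapOf (A := res P.subtype A) (B := res f A) e.toMonoidHom
        (LinearEquiv.refl k A.V).toLinearMap hcompat n).hom :=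
    fun n => mapOf_bijective (A := res P.subtype A) (B := res f A) e (LinearEquiv.refl k A.V)
      hcompat n
  refine ⟨?_, ?_, ?_⟩
  · haveI : Subsingleton (groupCohomology (res P.subtype A) 1) :=
      ModuleCat.isZero_iff_subsingleton.mp (h.h1 P hP)
    exact (Equiv.ofBijective _ (hE 1)).symm.subsingleton
  · rw [← Nat.card_congr (Equiv.ofBijective _ (hE 2)), ← hcardPQ]
    exact h.card P hP
  · intro m hm
    rw [← hcardPQ]
    apply h.ord P hP m
    apply (hE 2).1
    rw [map_nsmul, map_zero]
    have hcomp : (resMap P A 2) ≫ mapOf (A := res P.subtype A) (B := res f A) e.toMonoidHom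
        (LinearEquiv.refl k A.V).toLinearMap hcompat 2 = resAlong (A := A) f 2 := by
      rw [resMap_eq_mapOf]
      refine (mapOf_comp _ _ _ _ _ _ 2).trans ?_
      exact mapOf_congr _ _ (by ext q; rfl) (by ext a; rfl) 2
    have := congrArg (fun F => F.hom γ) hcomp
    simp only [ModuleCat.hom_comp, LinearMap.comp_apply] at this
    rw [this]
    exact hm

/-- The data for a Sylow subgroup `Q` of a subgroup `S`. -/
theorem PSubgroupData.sylow {γ : groupCohomology A 2} (h : PSubgroupData A p γ)
    (S : Subgroup G) (Q : Sylow p S) :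
    Subsingleton (groupCohomology (res (Q : Subgroup S).subtype (res S.subtype A)) 1) ∧
    Nat.card (groupCohomology (res (Q : Subgroup S).subtype (res S.subtype A)) 2) ∣
      Nat.card (Q : Subgroup S) ∧
    ∀ m : ℕ, m • (resMap (Q : Subgroup S) (res S.subtype A) 2).hom
      ((resMap S A 2).hom γ) = 0 → Nat.card (Q : Subgroup S) ∣ m := by
  have hf : Function.Injective (S.subtype.comp (Q : Subgroup S).subtype) :=
    S.subtype_injective.comp (Q : Subgroup S).subtype_injective
  obtain ⟨a1, a2, a3⟩ := h.along (S.subtype.comp (Q : Subgroup S).subtype) hf Q.isPGroup'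
  refine ⟨a1, a2, fun m hm => a3 m ?_⟩
  have hcomp : resMap S A 2 ≫ resMap (Q : Subgroup S) (res S.subtype A) 2 =
      resAlong (A := A) (S.subtype.comp (Q : Subgroup S).subtype) 2 := by
    rw [resMap_eq_mapOf, resMap_eq_mapOf]
    refine (mapOf_comp _ _ _ _ _ _ 2).trans ?_
    exact mapOf_congr _ _ rfl (LinearMap.ext fun a => rfl) 2
  have := congrArg (fun F => F.hom γ) hcomp
  simp only [ModuleCat.hom_comp, LinearMap.comp_apply] at this
  rw [← this]
  exact hm

end criterion

section sylowinj

variable {k : Type} [CommRing k] {G : Type} [Group G] [Finite G] {p : ℕ} [hp : Fact p.Prime]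

/-- **Sylow injectivity on `p`-primary parts**: a class killed by a power of `p` whose restriction
to a Sylow `p`-subgroup vanishes is zero. -/
theorem eq_zero_of_res_sylow_eq_zero_of_pow_nsmul (A : Rep.{0} k G) (Q : Sylow p G) (n : ℕ)
    (x : groupCohomology A (n + 1)) (j : ℕ) (hx : p ^ j • x = 0)
    (hres : (resMap (Q : Subgroup G) A (n + 1)).hom x = 0) : x = 0 :=
  eq_zero_of_pow_nsmul_of_coprime_nsmul hp.out x j _ hx
    (index_nsmul_eq_zero_of_res_eq_zero (Q : Subgroup G) n A x hres) Q.not_dvd_index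

end sylowinj

section main

variable {G : Type} [Group G] [Finite G] {A : Rep.{0} ℤ G} {p : ℕ} [hp : Fact p.Prime]

/-- **The Sylow criterion** for `p`-primary fundamental classes. -/
theorem isPFundamental_of_pSubgroupData {γ : groupCohomology A 2} (h : PSubgroupData A p γ) :
    IsPFundamental p A γ := by
  have key := h.sylow
  have key2 : ∀ (S : Subgroup G),
      (∀ x : groupCohomology (res S.subtype A) 2, (∃ j : ℕ, p ^ j • x = 0) →
        ∃ m : ℤ, x = m • (resMap S A 2).hom γ) ∧
      (∀ m : ℤ, m • (resMap S A 2).hom γ = 0 →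
        ((p ^ (Nat.card S).factorization p : ℕ) : ℤ) ∣ m) := by
    intro S
    obtain ⟨Q⟩ : Nonempty (Sylow p S) := inferInstance
    obtain ⟨-, a2, a3⟩ := key S Q
    have hQcard : Nat.card (Q : Subgroup S) = p ^ (Nat.card S).factorization p :=
      Q.card_eq_multiplicity
    rw [hQcard] at a2 a3
    exact pPrimary_gen_of_sylow
      (resMap (Q : Subgroup S) (res S.subtype A) 2).hom.toAddMonoidHom hp.out (Nat.card S)
      ((Nat.card S).factorization p) (Nat.card S / p ^ (Nat.card S).factorization p)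
      (Nat.mul_div_cancel' (Nat.ordProj_dvd _ _)).symm
      (Nat.not_dvd_ordCompl hp.out Nat.card_pos.ne')
      (fun x => card_nsmul_groupCohomology_eq_zero (res S.subtype A) 1 x)
      (fun x j hx hres =>
        eq_zero_of_res_sylow_eq_zero_of_pow_nsmul (res S.subtype A) Q 1 x j hx hres)
      ((resMap S A 2).hom γ) a2 a3
  refine ⟨?_, fun S => (key2 S).1, fun S => (key2 S).2⟩
  -- `H¹(S, A)[p] = 0`
  intro S x hx
  obtain ⟨Q⟩ : Nonempty (Sylow p S) := inferInstance
  obtain ⟨a1, -, -⟩ := key S Q
  exact eq_zero_of_res_sylow_eq_zero_of_pow_nsmul (res S.subtype A) Q 0 x 1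
    (by rw [pow_one]; exact hx) (a1.elim _ _)

end main

end Fermat.Agent.CFT.PT8
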