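/-
S55 / PT8, helper8: the idele class module `C_L` of a Galois extension `L/K` of number fields with
`ζ_p ∈ L` (`p` odd) carries a `p`-primary fundamental class (helper4's `IsPFundamental`):
helper3's Claim A + dévissage + the Sylow criterion.
-/
import Fermat.Agent.CFT.PT8.PF_helper8_Sylow
import Fermat.Agent.CFT.Global.PT4d_helper3_Final

set_option autoImplicit false
set_option linter.unusedSectionVars false

open scoped NumberField
open CategoryTheory groupCohomology Rep

namespace Fermat.Agent.CFT.PT8

open Fermat.Agent.CFT.Coh Fermat.Agent.CFT.PT4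

variable {p : ℕ} [hp : Fact p.Prime]

/-- helper3's global class satisfies the hypotheses of the Sylow criterion. -/
theorem exists_pSubgroupData_ideleClassRep (hp2 : p ≠ 2) (K L : Type) [Field K] [NumberField K]
    [Field L] [NumberField L] [Algebra K L] [IsGalois K L] (hη : ∃ η : L, IsPrimitiveRoot η p) :
    ∃ γ : groupCohomology (ideleClassRep K L) 2, PSubgroupData (ideleClassRep K L) p γ := by
  obtain ⟨γ, hγ⟩ := exists_globalClass hp2 K L hη
  exact ⟨γ, ⟨fun P hP => (isZero_H1_and_card_H2_dvd_of_isPGroup hp.out hp2 K L P hP).1,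
    fun P hP => (isZero_H1_and_card_H2_dvd_of_isPGroup hp.out hp2 K L P hP).2,
    fun P hP m hm => hγ P hP m hm⟩⟩

/-- **`C_L` has a `p`-primary fundamental class** (`L/K` Galois, `ζ_p ∈ L`, `p` odd). -/
theorem exists_isPFundamental_ideleClassRep (hp2 : p ≠ 2) (K L : Type) [Field K] [NumberField K]
    [Field L] [NumberField L] [Algebra K L] [IsGalois K L] (hη : ∃ η : L, IsPrimitiveRoot η p) :
    ∃ γ : groupCohomology (ideleClassRep K L) 2, IsPFundamental p (ideleClassRep K L) γ := by
  obtain ⟨γ, hγ⟩ := exists_pSubgroupData_ideleClassRep hp2 K L hη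
  exact ⟨γ, isPFundamental_of_pSubgroupData hγ⟩

end Fermat.Agent.CFT.PT8
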